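import Fermat.Agent.S51.DescentInt

set_option autoImplicit false

/-!
# The curve `y² = x (x - 1) (x - 81)` has only the obvious rational points
-/

namespace Fermat.Agent.S51lib

theorem two_descent_rat {x y : ℚ} (hy : y ≠ 0) (h : y ^ 2 = x * (x - 1) * (x - 81)) :
    ∃ a b c δ : ℚ, (δ = 1 ∨ δ = -1 ∨ δ = 5 ∨ δ = -5) ∧ x = a ^ 2 ∧ x - 1 = δ * b ^ 2 ∧
      x - 81 = δ * c ^ 2 := by
  obtain ⟨m, hm⟩ : ∃ m : ℤ, m = x.num := ⟨_, rfl⟩
  obtain ⟨n, hn⟩ : ∃ n : ℤ, n = (x.den : ℤ) := ⟨_, rfl⟩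
  have hn0 : 0 < n := by rw [hn]; exact_mod_cast x.den_pos
  have hnq : (n : ℚ) ≠ 0 := by exact_mod_cast hn0.ne'
  have hx : x = (m : ℚ) / n := by
    rw [hm, hn]; exact_mod_cast (Rat.num_div_den x).symm
  have hcop : IsCoprime m n := by
    rw [Int.isCoprime_iff_gcd_eq_one, hm, hn]
    exact x.reduced
  have hW : (y * n ^ 2) ^ 2 = ((n * (m * (m - n) * (m - 81 * n)) : ℤ) : ℚ) := by
    push_cast
    rw [mul_pow, h, hx]
    field_simp
  obtain ⟨W, hW'⟩ := exists_int_of_sq_eq_int hW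
  have hW0 : W ≠ 0 := by
    rintro rfl
    have : y * (n : ℚ) ^ 2 ≠ 0 := mul_ne_zero hy (pow_ne_zero 2 hnq)
    exact this (by simpa using hW')
  have hWeq : n * (m * (m - n) * (m - 81 * n)) = W ^ 2 := by
    rw [hW'] at hW
    exact_mod_cast hW.symm
  have hcop2 : IsCoprime n (m * (m - n) * (m - 81 * n)) := by
    have h1 : IsCoprime n m := hcop.symm
    have h2 : IsCoprime n (m - n) := by
      have := h1.add_mul_left_right (-1)
      simpa [sub_eq_add_neg] using this
    have h3 : IsCoprime n (m - 81 * n) := by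
      have := h1.add_mul_left_right (-81)
      have e : m + n * -81 = m - 81 * n := by ring
      rwa [e] at this
    exact (h1.mul_right h2).mul_right h3
  obtain ⟨s, t, hs, ht, hst⟩ := exists_gcd_sq_of_mul_eq_sq hW0 hWeq
  rw [Int.isCoprime_iff_gcd_eq_one.mp hcop2] at hst
  have hs2 : 0 < s ^ 2 := by positivity
  rcases hst with ⟨h1, h2⟩ | ⟨h1, h2⟩
  swap
  · exfalso
    push_cast at h1
    linarith
  push_cast at h1 h2
  rw [one_mul] at h1 h2
  have hcop3 : IsCoprime m s := by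
    rw [h1] at hcop
    exact IsCoprime.of_mul_right_left (by rwa [pow_two] at hcop)
  have h3 : t ^ 2 = m * (m - s ^ 2) * (m - 81 * s ^ 2) := by
    rw [← h2, h1]
  obtain ⟨M, u, v, δ, hδ, e1, e2, e3⟩ := two_descent_int hcop3 ht h3
  have hsq : (s : ℚ) ≠ 0 := by exact_mod_cast hs
  have e1' : (m : ℚ) = M ^ 2 := by exact_mod_cast e1
  have e2' : (m : ℚ) - s ^ 2 = δ * u ^ 2 := by exact_mod_cast e2
  have e3' : (m : ℚ) - 81 * s ^ 2 = δ * v ^ 2 := by exact_mod_cast e3
  have h1' : (n : ℚ) = s ^ 2 := by exact_mod_cast h1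
  refine ⟨M / s, u / s, v / s, δ, ?_, ?_, ?_, ?_⟩
  · rcases hδ with rfl | rfl | rfl | rfl <;> simp
  · rw [hx, h1', e1']; field_simp
  · rw [hx, h1']; field_simp; linarith
  · rw [hx, h1']; field_simp; linarith

theorem exists_double_sq {x y : ℚ} (hy : y ≠ 0) (h : y ^ 2 = x * (x - 1) * (x - 81)) :
    ∃ a b c : ℚ, a ^ 2 - 1 = b ^ 2 ∧ a ^ 2 - 81 = c ^ 2 ∧
      (a ^ 2 = x ∨ a ^ 2 = 81 / x ∨ a ^ 2 = 81 * (x - 1) / (x - 81) ∨
        a ^ 2 = (x - 81) / (x - 1)) := by
  have hy2 : y ^ 2 ≠ 0 := pow_ne_zero 2 hy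
  rw [h] at hy2
  have hx0 : x ≠ 0 := by
    rintro rfl; simp at hy2
  have hx1 : x - 1 ≠ 0 := by
    intro h0; rw [h0] at hy2; simp at hy2
  have hx81 : x - 81 ≠ 0 := by
    intro h0; rw [h0] at hy2; simp at hy2
  obtain ⟨a, b, c, δ, hδ, e1, e2, e3⟩ := two_descent_rat hy h
  have ha : a ≠ 0 := by
    rintro rfl; simp at e1; exact hx0 e1
  have hb : b ≠ 0 := by
    rintro rfl; simp at e2; exact hx1 e2
  have hc : c ≠ 0 := by
    rintro rfl; simp at e3; exact hx81 e3
  rcases hδ with rfl | rfl | rfl | rfl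
  · exact ⟨a, b, c, by linarith, by linarith, Or.inl e1.symm⟩
  · refine ⟨9 / a, c / a, 9 * b / a, ?_, ?_, Or.inr (Or.inl ?_)⟩
    · field_simp; linarith
    · field_simp; linarith
    · rw [e1]; field_simp; norm_num
  · refine ⟨9 * b / c, 4 * a / c, 36 / c, ?_, ?_, Or.inr (Or.inr (Or.inl ?_))⟩
    · field_simp; linarith
    · field_simp; linarith
    · rw [e2, e3]; field_simp; norm_num
  · refine ⟨c / b, 4 / b, 4 * a / b, ?_, ?_, Or.inr (Or.inr (Or.inr ?_))⟩
    · field_simp; linarith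
    · field_simp; linarith
    · rw [e2, e3]; field_simp

/-- If `q² * Q = P` with `P, Q` integers, then `q.num² ∣ P`. -/
theorem num_sq_dvd_of_sq_mul_eq {q : ℚ} {P Q : ℤ} (h : q ^ 2 * Q = P) : q.num ^ 2 ∣ P := by
  have hd : (q.den : ℚ) ≠ 0 := by exact_mod_cast q.den_nz
  have hq : q * q.den = q.num := Rat.mul_den_eq_num q
  have h1 : (q.num : ℚ) ^ 2 * Q = P * (q.den : ℚ) ^ 2 := by
    rw [← h, ← hq]; ring
  have h2 : q.num ^ 2 * Q = P * (q.den : ℤ) ^ 2 := by exact_mod_cast h1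
  have hcop : IsCoprime (q.num ^ 2) ((q.den : ℤ) ^ 2) := by
    apply IsCoprime.pow
    rw [Int.isCoprime_iff_gcd_eq_one]; exact q.reduced
  exact hcop.dvd_of_dvd_mul_right ⟨Q, h2.symm⟩

theorem no_double_sq : ∀ (k : ℕ) (a b c : ℚ), a.num.natAbs = k → a ^ 2 - 1 = b ^ 2 →
    a ^ 2 - 81 = c ^ 2 → False := by
  intro k
  induction k using Nat.strong_induction_on with
  | _ k ih =>
    intro a b c hk h1 h2
    obtain ⟨M, hM⟩ : ∃ M : ℤ, M = a.num := ⟨_, rfl⟩
    obtain ⟨e, he⟩ : ∃ e : ℤ, e = (a.den : ℤ) := ⟨_, rfl⟩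
    have he0 : 0 < e := by rw [he]; exact_mod_cast a.den_pos
    have heq : (e : ℚ) ≠ 0 := by exact_mod_cast he0.ne'
    have ha : a * e = M := by
      rw [hM, he]; exact_mod_cast Rat.mul_den_eq_num a
    have hu : (b * e) ^ 2 = ((M ^ 2 - e ^ 2 : ℤ) : ℚ) := by
      push_cast; rw [mul_pow, ← h1, ← ha]; ring
    have hv : (c * e) ^ 2 = ((M ^ 2 - 81 * e ^ 2 : ℤ) : ℚ) := by
      push_cast; rw [mul_pow, ← h2, ← ha]; ring
    obtain ⟨u, hu'⟩ := exists_int_of_sq_eq_int hu
    obtain ⟨v, hv'⟩ := exists_int_of_sq_eq_int hv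
    have hv2 : v ^ 2 = M ^ 2 - 81 * e ^ 2 := by
      rw [hv'] at hv; exact_mod_cast hv
    have hab : (a + b) * (a - b) = 1 := by linear_combination h1
    have hac : (a + c) * (a - c) = 81 := by linear_combination h2
    have hbc : (b + c) * (b - c) = 80 := by linear_combination h2 - h1
    have hab0 : a + b ≠ 0 := by
      intro h0; rw [h0] at hab; norm_num at hab
    have hac0 : a + c ≠ 0 := by
      intro h0; rw [h0] at hac; norm_num at hac
    have hbc0 : b + c ≠ 0 := by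
      intro h0; rw [h0] at hbc; norm_num at hbc
    have e1 : (a + b) * (a + c) - 1 = (a + b) * (b + c) := by linear_combination h1
    have e2 : (a + b) * (a + c) - 81 = (a + c) * (b + c) := by linear_combination h2
    have hη : ((a + b) * (a + c) * (b + c)) ^ 2 =
        ((a + b) * (a + c)) * ((a + b) * (a + c) - 1) * ((a + b) * (a + c) - 81) := by
      rw [e1, e2]; ring
    have hη0 : (a + b) * (a + c) * (b + c) ≠ 0 := mul_ne_zero (mul_ne_zero hab0 hac0) hbc0
    obtain ⟨a', b', c', h1', h2', hcases⟩ := exists_double_sq hη0 hη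
    rw [e1, e2] at hcases
    have key : ∃ σ τ : ℤ, (σ = 1 ∨ σ = -1) ∧
        a' ^ 2 * ((M + τ * u : ℤ) : ℚ) = ((M + σ * v : ℤ) : ℚ) := by
      rcases hcases with hc | hc | hc | hc
      · refine ⟨1, -1, Or.inl rfl, ?_⟩
        push_cast
        rw [hc, ← ha, ← hu', ← hv']
        linear_combination (a + c) * e * hab
      · refine ⟨-1, 1, Or.inr rfl, ?_⟩
        push_cast
        rw [hc, ← ha, ← hu', ← hv']
        field_simp
        linear_combination (-1 : ℚ) * hac
      · refine ⟨-1, -1, Or.inr rfl, ?_⟩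
        push_cast
        rw [hc, ← ha, ← hu', ← hv']
        field_simp
        linear_combination 81 * hab - hac
      · refine ⟨1, 1, Or.inl rfl, ?_⟩
        push_cast
        rw [hc, ← ha, ← hu', ← hv']
        field_simp
    obtain ⟨σ, τ, hσ, hkey⟩ := key
    have hdvd := num_sq_dvd_of_sq_mul_eq hkey
    have hne : M + σ * v ≠ 0 := by
      intro h0
      have : (M + σ * v) * (M - σ * v) = 81 * e ^ 2 := by
        have hσ2 : σ ^ 2 = 1 := by rcases hσ with rfl | rfl <;> norm_num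
        linear_combination (-1 : ℤ) * σ ^ 2 * hv2 + (- (M ^ 2 - 81 * e ^ 2)) * hσ2
      rw [h0, zero_mul] at this
      have : 0 < 81 * e ^ 2 := by positivity
      linarith
    have hle : a'.num ^ 2 ≤ |M + σ * v| := by
      have := Int.le_of_dvd (abs_pos.mpr hne) ((dvd_abs _ _).mpr hdvd)
      exact this
    have hvM : |v| < |M| := by
      rw [← sq_lt_sq, hv2]
      have : 0 < 81 * e ^ 2 := by positivity
      linarith
    have hM9 : 9 ≤ |M| := by
      have h81 : (9 : ℤ) ^ 2 ≤ M ^ 2 := by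
        have : 0 ≤ v ^ 2 := by positivity
        have : 1 ≤ e ^ 2 := by nlinarith
        nlinarith
      have := sq_le_sq.mp h81
      simpa using this
    have hlt : |M + σ * v| < 2 * |M| := by
      have h3 : |M + σ * v| ≤ |M| + |σ * v| := abs_add_le _ _
      have h4 : |σ * v| = |v| := by
        rcases hσ with rfl | rfl <;> simp
      rw [h4] at h3
      linarith
    have hfin : a'.num ^ 2 < M ^ 2 := by
      have : M ^ 2 = |M| ^ 2 := (sq_abs M).symm
      rw [this]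
      nlinarith
    have hnat : a'.num.natAbs < k := by
      rw [← hk, ← hM]
      exact Int.natAbs_lt_iff_sq_lt.mpr hfin
    exact ih _ hnat a' b' c' rfl h1' h2'

/-- The only rational points of `y² = x (x - 1) (x - 81)` are the 2-torsion points. -/
theorem descent_15 (x y : ℚ) (h : y ^ 2 = x * (x - 1) * (x - 81)) : y = 0 := by
  by_contra hy
  obtain ⟨a, b, c, h1, h2, -⟩ := exists_double_sq hy h
  exact no_double_sq _ a b c rfl h1 h2

end Fermat.Agent.S51lib
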