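import Mathlib

set_option autoImplicit false

namespace Fermat.Agent.S51lib

/-- The `X₀(15)` relation in normalised coordinates (certificate found by polynomial division). -/
theorem rel_norm {F : Type*} [Field F] [CharZero F] (a s B num den : F)
    (hB : B = (a ^ 2 - 6 * a - 3) / 12)
    (hnum : num = s ^ 3 - 6 * s ^ 2 + (6 - 2 * a) * s - 4 * B)
    (hden : den = 2 * (s ^ 3 + 4 * a * s + 8 * B))
    (h5 : s ^ 6 + 20 * a * s ^ 4 + 160 * B * s ^ 3 - 80 * a ^ 2 * s ^ 2 - 128 * a * B * s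
      - 80 * B ^ 2 = 0) :
    (a + 3) ^ 2 * (den + 9 * num) * den ^ 5 - 45 * (3 * a + 1) * (a + 3) * num ^ 3 * den ^ 3
      + 81 * (3 * a + 1) ^ 2 * num ^ 5 * (den - num) = 0 := by
  subst hnum hden hB
  linear_combination (s^12*a^2 - 1002*s^12*a + 2169*s^12 + 216*s^11*a^2 + 42768*s^11*a + 1944*s^11 + 220*s^10*a^3 + 53124*s^10*a^2 - 333468*s^10*a - 104004*s^10 + (80/3)*s^9*a^4 + 45480*s^9*a^3 - 517400*s^9*a^2 + 1246200*s^9*a + 497160*s^9 + 17520*s^8*a^4 - 473760*s^8*a^3 + 2257200*s^8*a^2 - 2566080*s^8*a - 1166400*s^8 + 2924*s^7*a^5 - 176652*s^7*a^4 + 2282232*s^7*a^3 - 5380056*s^7*a^2 + 2621916*s^7*a + 1542564*s^7 + (530/3)*s^6*a^6 - 30276*s^6*a^5 + 856538*s^6*a^4 - 6278328*s^6*a^3 + 6710874*s^6*a^2 - 271044*s^6*a - 1030266*s^6 - 2920*s^5*a^6 + 160416*s^5*a^5 - 2317128*s^5*a^4 + 10441728*s^5*a^3 - 2252664*s^5*a^2 - 1796256*s^5*a + 75816*s^5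 - (740/3)*s^4*a^7 + 20540*s^4*a^6 - 426860*s^4*a^5 + 3708540*s^4*a^4 - 10505220*s^4*a^3 - 5023980*s^4*a^2 + 462780*s^4*a + 247860*s^4 - (400/27)*s^3*a^8 + (18520/9)*s^3*a^7 - 50120*s^3*a^6 + 628600*s^3*a^5 - 3589960*s^3*a^4 + 5885640*s^3*a^3 + 7246120*s^3*a^2 + 1879080*s^3*a + 80280*s^3 + (368/3)*s^2*a^8 - 3184*s^2*a^7 + 58544*s^2*a^6 - 548208*s^2*a^5 + 2017104*s^2*a^4 - 1161936*s^2*a^3 - 3662064*s^2*a^2 - 1706832*s^2*a - 225504*s^2 + (140/27)*s*a^9 - (116/9)*s*a^8 + 1456*s*a^7 - 38256*s*a^6 + 273752*s*a^5 - 543096*s*a^4 - 439376*s*a^3 + 391056*s*a^2 + 361188*s*a + 70956*s + (25/81)*a^10 + (10/3)*a^9 - (2737/27)*a^8 - (2264/9)*a^7 + (36358/3)*a^6 - 59372*a^5 + (79478/3)*a^4 + 201576*a^3 + 178549*a^2 + 61422*a + 7569) * h5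

end Fermat.Agent.S51lib

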