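import Mathlib
import Fermat.Agent.S51.Rel

set_option autoImplicit false

namespace Fermat.Agent.S51lib

theorem isog_step (x w : ℚ) (hx0 : x ≠ 0) (h1 : (36 * w) ^ 2 = x * (x + 16) * (x + 25)) :
    (36 * w * (x ^ 2 - 400) / x ^ 2) ^ 2 =
      ((x + 16) * (x + 25) / x) * ((x + 16) * (x + 25) / x - 1) *
        ((x + 16) * (x + 25) / x - 81) := by
  have e1 : (x + 16) * (x + 25) / x - 1 = (x + 20) ^ 2 / x := by field_simp; ring
  have e2 : (x + 16) * (x + 25) / x - 81 = (x - 20) ^ 2 / x := by field_simp; ring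
  rw [e1, e2, div_pow, mul_pow, h1]
  field_simp
  ring

/-- Rational points on `w² = α(9α-4)(4α+1)` (a model of `X₀(15)`). -/
theorem al_list (descent : ∀ x y : ℚ, y ^ 2 = x * (x - 1) * (x - 81) → y = 0)
    (al w : ℚ) (hw2 : w ^ 2 = al * (9 * al - 4) * (4 * al + 1)) :
    al = 0 ∨ al = 4 / 9 ∨ al = -1 / 4 ∨ al = 1 ∨ al = -1 / 9 := by
  obtain ⟨x, hx⟩ : ∃ x : ℚ, x = 36 * al - 16 := ⟨_, rfl⟩
  have hal : al = (x + 16) / 36 := by rw [hx]; ring
  by_cases hx0 : x = 0
  · right; left; rw [hal, hx0]; norm_num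
  · have h1 : (36 * w) ^ 2 = x * (x + 16) * (x + 25) := by
      rw [mul_pow, hw2, hal]; ring
    have hy := descent _ _ (isog_step x w hx0 h1)
    have hx2 : x ^ 2 ≠ 0 := pow_ne_zero 2 hx0
    have hy' : 36 * w * (x ^ 2 - 400) = 0 := by
      rcases div_eq_zero_iff.mp hy with h | h
      · exact h
      · exact absurd h hx2
    rcases mul_eq_zero.mp hy' with h | h
    · have hw0 : w = 0 := by linarith
      rw [hw0] at hw2
      have h3 : al * (9 * al - 4) * (4 * al + 1) = 0 := by linarith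
      rcases mul_eq_zero.mp h3 with h | h
      · rcases mul_eq_zero.mp h with h | h
        · left; exact h
        · right; left; linarith
      · right; right; left; linarith
    · have h3 : (x - 20) * (x + 20) = 0 := by linarith
      rcases mul_eq_zero.mp h3 with h | h
      · right; right; right; left; rw [hal]; linarith
      · right; right; right; right; rw [hal]; linarith

/-- From the relation to the list of values of `H`. -/
theorem H_list (descent : ∀ x y : ℚ, y ^ 2 = x * (x - 1) * (x - 81) → y = 0)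
    (al H : ℚ) (hH : H ≠ 0)
    (hrel : (1 + 9 * al) + 5 * H * al ^ 3 + H ^ 2 * al ^ 5 * (1 - al) = 0) :
    H = -2 ∨ H = -729 / 2 ∨ H = -729 / 32 ∨ H = -32 := by
  have hw2 : (2 * (1 - al) * (H * al ^ 3) + 5 * al) ^ 2 = al * (9 * al - 4) * (4 * al + 1) := by
    linear_combination 4 * (1 - al) * al * hrel
  rcases al_list descent _ _ hw2 with rfl | rfl | rfl | rfl | rfl
  · norm_num at hrel
  · right; right; left
    have h2 : (32 * H + 729) ^ 2 = 0 := by linear_combination (531441 / 5) * hrel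
    have := pow_eq_zero_iff (two_ne_zero) |>.mp h2
    linarith
  · right; right; right
    have h2 : (H + 32) ^ 2 = 0 := by linear_combination (-4096 / 5) * hrel
    have := pow_eq_zero_iff (two_ne_zero) |>.mp h2
    linarith
  · left; linarith
  · right; left
    have h2 : H * (2 * H + 729) = 0 := by linear_combination (-531441 / 5) * hrel
    rcases mul_eq_zero.mp h2 with h | h
    · exact absurd h hH
    · linarith

/-- Main algebraic statement over `ℚ`. -/
theorem alg_main (descent : ∀ x y : ℚ, y ^ 2 = x * (x - 1) * (x - 81) → y = 0)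
    (A B X s : ℚ) (hA : A ≠ 0) (hB : B ≠ 0) (hD : 4 * A ^ 3 + 27 * B ^ 2 ≠ 0)
    (h3 : 3 * X ^ 4 + 6 * A * X ^ 2 + 12 * B * X - A ^ 2 = 0)
    (h5 : s ^ 6 + 20 * A * s ^ 4 + 160 * B * s ^ 3 - 80 * A ^ 2 * s ^ 2 - 128 * A * B * s
      - 80 * B ^ 2 = 0) :
    ∃ H : ℚ, (H = -2 ∨ H = -729 / 2 ∨ H = -729 / 32 ∨ H = -32) ∧
      6912 * A ^ 3 * H = (4 * A ^ 3 + 27 * B ^ 2) * (H + 27) * (H + 3) ^ 3 := by
  have hX : X ≠ 0 := by
    rintro rfl
    apply hA
    have : A ^ 2 = 0 := by linarith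
    exact pow_eq_zero_iff (two_ne_zero) |>.mp this
  obtain ⟨a, ha⟩ : ∃ a : ℚ, a = A / X ^ 2 := ⟨_, rfl⟩
  obtain ⟨t, ht⟩ : ∃ t : ℚ, t = s / X := ⟨_, rfl⟩
  have hA' : A = a * X ^ 2 := by rw [ha]; field_simp
  have hs' : s = t * X := by rw [ht]; field_simp
  obtain ⟨b, hb⟩ : ∃ b : ℚ, b = (a ^ 2 - 6 * a - 3) / 12 := ⟨_, rfl⟩
  have hB' : B = b * X ^ 3 := by
    have h12 : 12 * X ≠ 0 := mul_ne_zero (by norm_num) hX
    apply mul_left_cancel₀ h12
    rw [hA'] at h3
    rw [hb]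
    linear_combination h3
  subst hA' hs' hB'
  have hX6 : X ^ 6 ≠ 0 := pow_ne_zero 6 hX
  have hb0 : b ≠ 0 := by
    rintro rfl
    exact hB (by ring)
  have h5' : t ^ 6 + 20 * a * t ^ 4 + 160 * b * t ^ 3 - 80 * a ^ 2 * t ^ 2 - 128 * a * b * t
      - 80 * b ^ 2 = 0 := by
    have : X ^ 6 * (t ^ 6 + 20 * a * t ^ 4 + 160 * b * t ^ 3 - 80 * a ^ 2 * t ^ 2
      - 128 * a * b * t - 80 * b ^ 2) = 0 := by linear_combination h5
    exact (mul_eq_zero.mp this).resolve_left hX6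
  have hD1 : 4 * a ^ 3 + 27 * b ^ 2 ≠ 0 := by
    intro h
    apply hD
    linear_combination X ^ 6 * h
  have hD' : (a + 3) ^ 3 * (3 * a + 1) ≠ 0 := by
    intro h
    apply hD1
    rw [hb]
    linear_combination (1 / 16) * h
  have ha3 : a + 3 ≠ 0 := by
    intro h; apply hD'; rw [h]; ring
  have ha1 : 3 * a + 1 ≠ 0 := by
    intro h; apply hD'; rw [h]; ring
  have hrel := rel_norm a t b _ _ hb rfl rfl h5'
  -- the denominator does not vanish
  have hden : 2 * (t ^ 3 + 4 * a * t + 8 * b) ≠ 0 := by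
    intro h
    have e1 : t ^ 3 + 4 * a * t + 8 * b = 0 := by linarith
    have e2 : (5 * t ^ 3 + 8 * a * t + 4 * b) ^ 2 = 0 := by
      linear_combination (-1) * h5' + (13 * t ^ 3 - 2 * a * t - 4 * b) * 2 * e1
    have e3 : 5 * t ^ 3 + 8 * a * t + 4 * b = 0 := pow_eq_zero_iff (two_ne_zero) |>.mp e2
    have e4 : b = - a * t / 3 := by linear_combination (5 * e1 - e3) / 36
    have e5 : t * (t ^ 2 + 4 * a / 3) = 0 := by rw [e4] at e1; linear_combination e1
    rcases mul_eq_zero.mp e5 with h0 | h0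
    · apply hb0; rw [e4, h0]; ring
    · apply hD1; rw [e4]; linear_combination 3 * a ^ 2 * h0
  obtain ⟨num, hnum⟩ : ∃ n : ℚ, n = t ^ 3 - 6 * t ^ 2 + (6 - 2 * a) * t - 4 * b := ⟨_, rfl⟩
  obtain ⟨den, hden'⟩ : ∃ n : ℚ, n = 2 * (t ^ 3 + 4 * a * t + 8 * b) := ⟨_, rfl⟩
  rw [← hnum, ← hden'] at hrel
  rw [← hden'] at hden
  have hH0 : -9 * (3 * a + 1) / (a + 3) ≠ 0 :=
    div_ne_zero (mul_ne_zero (by norm_num) ha1) ha3
  refine ⟨-9 * (3 * a + 1) / (a + 3), H_list descent (num / den) _ hH0 ?_, ?_⟩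
  · field_simp
    linear_combination hrel
  · rw [hb]
    field_simp
    ring

end Fermat.Agent.S51lib
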