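import Mathlib

/-!
# x-coordinate duplication on Weierstrass curves (helper for S51)
-/

set_option autoImplicit false

namespace Fermat.Agent.S51Lib

open WeierstrassCurve WeierstrassCurve.Affine WeierstrassCurve.Affine.Point

variable {K : Type*} [Field K] (W : WeierstrassCurve.Affine K)

/-- `ψ₂² = 4x³ + b₂x² + 2b₄x + b₆`. -/
def F (x : K) : K := 4 * x ^ 3 + W.b₂ * x ^ 2 + 2 * W.b₄ * x + W.b₆

/-- `ψ₃ = 3x⁴ + b₂x³ + 3b₄x² + 3b₆x + b₈`. -/
def psi3 (x : K) : K := 3 * x ^ 4 + W.b₂ * x ^ 3 + 3 * W.b₄ * x ^ 2 + 3 * W.b₆ * x + W.b₈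

variable {W}

theorem F_eq_sq {x y : K} (h : W.Equation x y) : F W x = (y - W.negY x y) ^ 2 := by
  rw [equation_iff] at h
  simp only [F, negY, WeierstrassCurve.b₂, WeierstrassCurve.b₄, WeierstrassCurve.b₆]
  linear_combination (-4) * h

theorem F_ne_zero_iff {x y : K} (h : W.Equation x y) : F W x ≠ 0 ↔ y ≠ W.negY x y := by
  rw [F_eq_sq h, ne_eq, ne_eq, pow_eq_zero_iff two_ne_zero, sub_eq_zero]

variable [DecidableEq K]

theorem addX_self_mul_F {x y : K} (h : W.Equation x y) (hy : y ≠ W.negY x y) :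
    (W.addX x x (W.slope x x y y) - x) * F W x = - psi3 W x := by
  have ht : y - W.negY x y ≠ 0 := sub_ne_zero.mpr hy
  rw [slope_of_Y_ne rfl hy, F_eq_sq h]
  rw [equation_iff] at h
  simp only [addX]
  field_simp
  simp only [psi3, negY, WeierstrassCurve.b₂, WeierstrassCurve.b₄, WeierstrassCurve.b₆,
    WeierstrassCurve.b₈]
  linear_combination (-(W.a₁ ^ 2 + 4 * W.a₂ + 12 * x)) * h

/-- Doubling a point with `F x = 0` gives zero. -/
theorem add_self_of_F_eq_zero {x y : K} (h : W.Nonsingular x y) (hF : F W x = 0) :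
    (some x y h : W.Point) + some x y h = 0 := by
  apply add_self_of_Y_eq
  by_contra hy
  exact (F_ne_zero_iff h.1).mpr hy hF

/-- Doubling a point with `F x ≠ 0`. -/
theorem add_self_of_F_ne_zero {x y : K} (h : W.Nonsingular x y) (hF : F W x ≠ 0) :
    ∃ (x' y' : K) (h' : W.Nonsingular x' y'), (some x y h : W.Point) + some x y h = some x' y' h' ∧
      (x' - x) * F W x = - psi3 W x := by
  have hy := (F_ne_zero_iff h.1).mp hF
  exact ⟨_, _, _, add_self_of_Y_ne hy, addX_self_mul_F h.1 hy⟩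

end Fermat.Agent.S51Lib
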