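import Mathlib
import Fermat.Agent.S51.Dup

/-!
# From the pair equations of a 5-torsion line to the sextic `P₅` (helper for S51)
-/

set_option autoImplicit false

namespace Fermat.Agent.S51lib

open Fermat.Agent.S51Lib

theorem F_shift {K : Type*} [Field K] [CharZero K] (W : WeierstrassCurve.Affine K) (x : K) :
    F W x = 4 * ((x + W.b₂ / 12) ^ 3 + (-W.c₄ / 48) * (x + W.b₂ / 12) + (-W.c₆ / 864)) := by
  simp only [F, WeierstrassCurve.c₄, WeierstrassCurve.c₆]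
  ring

theorem psi3_shift {K : Type*} [Field K] [CharZero K] (W : WeierstrassCurve.Affine K) (x : K) :
    psi3 W x = 3 * (x + W.b₂ / 12) ^ 4 + 6 * (-W.c₄ / 48) * (x + W.b₂ / 12) ^ 2
      + 12 * (-W.c₆ / 864) * (x + W.b₂ / 12) - (-W.c₄ / 48) ^ 2 := by
  have h := W.b_relation
  simp only [psi3, WeierstrassCurve.c₄, WeierstrassCurve.c₆]
  linear_combination (1 / 4) * h

/-- The pair equations imply that `X₁ + X₂` is a root of the sextic `P₅`. -/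
theorem pair_alg {K : Type*} [Field K] [CharZero K] (A B X₁ X₂ : K) (hne : X₁ ≠ X₂)
    (h1 : (X₂ - X₁) * (4 * (X₁ ^ 3 + A * X₁ + B))
      = -(3 * X₁ ^ 4 + 6 * A * X₁ ^ 2 + 12 * B * X₁ - A ^ 2))
    (h2 : (X₁ - X₂) * (4 * (X₂ ^ 3 + A * X₂ + B))
      = -(3 * X₂ ^ 4 + 6 * A * X₂ ^ 2 + 12 * B * X₂ - A ^ 2)) :
    (X₁ + X₂) ^ 6 + 20 * A * (X₁ + X₂) ^ 4 + 160 * B * (X₁ + X₂) ^ 3
      - 80 * A ^ 2 * (X₁ + X₂) ^ 2 - 128 * A * B * (X₁ + X₂) - 80 * B ^ 2 = 0 := by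
  have hd : X₁ - X₂ ≠ 0 := sub_ne_zero.mpr hne
  have he2 : 6 * (X₁ + X₂) * (X₁ * X₂)
      - ((X₁ + X₂) ^ 3 - 2 * A * (X₁ + X₂) - 4 * B) = 0 := by
    apply mul_left_cancel₀ hd
    linear_combination h1 - h2
  have hG : -(X₁ + X₂) ^ 4 + 8 * (X₁ + X₂) ^ 2 * (X₁ * X₂) - 10 * (X₁ * X₂) ^ 2
      + 4 * A * (X₁ * X₂) + 2 * A * (X₁ + X₂) ^ 2 + 12 * B * (X₁ + X₂) - 2 * A ^ 2 = 0 := by
    linear_combination h1 + h2
  linear_combination 18 * (X₁ + X₂) ^ 2 * hG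
    - (1 / 2) * (-10 * (6 * (X₁ + X₂) * (X₁ * X₂) + ((X₁ + X₂) ^ 3 - 2 * A * (X₁ + X₂) - 4 * B))
      + 48 * (X₁ + X₂) ^ 3 + 24 * A * (X₁ + X₂)) * he2

end Fermat.Agent.S51lib
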