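import Mathlib
import Fermat.Prelude.Def_FLTPrelim_Modularity

/-!
# Integrality consequences of semistability (helper for S51)
-/

set_option autoImplicit false

namespace Fermat.Agent.S51lib

theorem prime_five_int : Prime (5 : ℤ) := Int.prime_iff_natAbs_prime.mpr (by norm_num)

/-- If every prime dividing `Δ` divides `c₄`, a semistable model has `Δ = ± 1`. -/
theorem delta_unit_of_forall (W : WeierstrassCurve ℤ) (hW : W.IsSemistableModel)
    (h : ∀ p : ℕ, p.Prime → (p : ℤ) ∣ W.Δ → (p : ℤ) ∣ W.c₄) : W.Δ = 1 ∨ W.Δ = -1 := by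
  have h1 : W.Δ.natAbs = 1 := by
    by_contra hne
    obtain ⟨p, hp, hpd⟩ := Nat.exists_prime_and_dvd hne
    have hpd' : (p : ℤ) ∣ W.Δ := Int.natCast_dvd.mpr hpd
    exact hW p hp hpd' (h p hp hpd')
  exact Int.natAbs_eq_iff.mp h1 |>.imp id id

theorem c4_ne_zero (W : WeierstrassCurve ℤ) (hW : W.IsSemistableModel) : W.c₄ ≠ 0 := by
  intro h0
  have hu := delta_unit_of_forall W hW (fun p _ _ => by rw [h0]; exact dvd_zero _)
  have hrel := W.c_relation
  rw [h0] at hrel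
  obtain ⟨c, hc⟩ : ∃ c : ℤ, c = W.c₆ := ⟨_, rfl⟩
  rw [← hc] at hrel
  rcases hu with hu | hu
  · rw [hu] at hrel
    nlinarith [sq_nonneg c]
  · rw [hu] at hrel
    have h2 : c ^ 2 = 1728 := by linarith
    have h3 : |c| < 42 := abs_lt_of_sq_lt_sq (by rw [h2]; norm_num) (by norm_num)
    have h4 : 41 < |c| := by
      by_contra hle
      have h5 : |c| ≤ 41 := not_lt.mp hle
      have h6 : c ^ 2 ≤ 41 ^ 2 := sq_le_sq' (by linarith [neg_abs_le c]) (by linarith [le_abs_self c])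
      rw [h2] at h6
      norm_num at h6
    omega

theorem b2_mod_four (W : WeierstrassCurve ℤ) : W.b₂ % 4 = 0 ∨ W.b₂ % 4 = 1 := by
  obtain ⟨t, ht | ht⟩ := Int.even_or_odd' W.a₁
  · left
    have : W.b₂ = 4 * (t ^ 2 + W.a₂) := by rw [WeierstrassCurve.b₂, ht]; ring
    omega
  · right
    have : W.b₂ = 4 * (t ^ 2 + t + W.a₂) + 1 := by rw [WeierstrassCurve.b₂, ht]; ring
    omega

theorem c6_ne_zero (W : WeierstrassCurve ℤ) (hW : W.IsSemistableModel) : W.c₆ ≠ 0 := by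
  intro h0
  have hrel := W.c_relation
  rw [h0] at hrel
  have hu := delta_unit_of_forall W hW (fun p hp hpd => by
    have hp' : Prime (p : ℤ) := Nat.prime_iff_prime_int.mp hp
    have : (p : ℤ) ∣ W.c₄ ^ 3 := by
      have h1 : W.c₄ ^ 3 = 1728 * W.Δ := by linarith
      rw [h1]; exact Dvd.dvd.mul_left hpd _
    exact hp'.dvd_of_dvd_pow this)
  have hc4 : W.c₄ = 12 ∨ W.c₄ = -12 := by
    rcases hu with hu | hu
    · left
      apply (Odd.strictMono_pow (R := ℤ) (by decide : Odd 3)).injective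
      show W.c₄ ^ 3 = 12 ^ 3
      rw [hu] at hrel; linarith
    · right
      apply (Odd.strictMono_pow (R := ℤ) (by decide : Odd 3)).injective
      show W.c₄ ^ 3 = (-12) ^ 3
      rw [hu] at hrel; linarith
  have hb := b2_mod_four W
  have hc4' : W.c₄ = W.b₂ ^ 2 - 24 * W.b₄ := rfl
  obtain ⟨q, r, hqr, hr⟩ : ∃ q r : ℤ, W.b₂ = 4 * q + r ∧ (r = 0 ∨ r = 1) := by
    refine ⟨W.b₂ / 4, W.b₂ % 4, by omega, hb⟩
  rw [hqr] at hc4'
  rcases hr with rfl | rfl
  · have : W.c₄ = 8 * (2 * q ^ 2 - 3 * W.b₄) := by rw [hc4']; ring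
    omega
  · have : W.c₄ = 8 * (2 * q ^ 2 + q - 3 * W.b₄) + 1 := by rw [hc4']; ring
    omega

/-- The four exceptional `j`-invariants are not semistable at `5`. -/
theorem endgame (W : WeierstrassCurve ℤ) (hW : W.IsSemistableModel) (H : ℚ)
    (hH : H = -2 ∨ H = -729 / 2 ∨ H = -729 / 32 ∨ H = -32)
    (hj : (W.c₄ : ℚ) ^ 3 * H = (W.Δ : ℚ) * (H + 27) * (H + 3) ^ 3) : False := by
  obtain ⟨c, hc⟩ : ∃ c : ℤ, c = W.c₄ := ⟨_, rfl⟩
  obtain ⟨D, hD⟩ : ∃ D : ℤ, D = W.Δ := ⟨_, rfl⟩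
  have h5 := hW 5 (by norm_num)
  rw [← hc, ← hD] at h5
  rw [← hc, ← hD] at hj
  have key : ∀ (u v : ℤ), ¬ (5 : ℤ) ∣ u → ¬ (5 : ℤ) ∣ v → (u * c ^ 3 = 5 * v * D ∨ u * c ^ 3 = 25 * v * D)
      → False := by
    intro u v hu hv h
    have hc5 : (5 : ℤ) ∣ c := by
      have : (5 : ℤ) ∣ u * c ^ 3 := by
        rcases h with h | h
        · rw [h]; exact ⟨v * D, by ring⟩
        · rw [h]; exact ⟨5 * v * D, by ring⟩
      rcases prime_five_int.dvd_or_dvd this with h' | h'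
      · exact absurd h' hu
      · exact prime_five_int.dvd_of_dvd_pow h'
    have hD5 : (5 : ℤ) ∣ D := by
      obtain ⟨k, rfl⟩ := hc5
      have : (5 : ℤ) ∣ v * D := by
        rcases h with h | h
        · exact ⟨5 * u * k ^ 3, by linarith [h, (by ring : u * (5 * k) ^ 3 = 125 * (u * k ^ 3))]⟩
        · exact ⟨u * k ^ 3, by linarith [h, (by ring : u * (5 * k) ^ 3 = 125 * (u * k ^ 3))]⟩
      rcases prime_five_int.dvd_or_dvd this with h' | h'
      · exact absurd h' hv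
      · exact h'
    exact h5 (by exact_mod_cast hD5) (by exact_mod_cast hc5)
  rcases hH with rfl | rfl | rfl | rfl
  · apply key 2 (-1) (by norm_num) (by norm_num)
    right
    have : (2 : ℚ) * (c : ℚ) ^ 3 = 25 * (-1) * D := by linarith
    exact_mod_cast this
  · apply key 8 (-(241 ^ 3)) (by norm_num) (by norm_num)
    right
    have : (8 : ℚ) * (c : ℚ) ^ 3 = 25 * (-(241 ^ 3)) * D := by linarith
    exact_mod_cast this
  · apply key 32768 (211 ^ 3) (by norm_num) (by norm_num)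
    left
    have : (32768 : ℚ) * (c : ℚ) ^ 3 = 5 * (211 ^ 3) * D := by linarith
    exact_mod_cast this
  · apply key 32 (-(29 ^ 3)) (by norm_num) (by norm_num)
    left
    have : (32 : ℚ) * (c : ℚ) ^ 3 = 5 * (-(29 ^ 3)) * D := by linarith
    exact_mod_cast this

end Fermat.Agent.S51lib
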