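import Mathlib
import Fermat.Agent.S51.Pair
import Fermat.Agent.S51.Alg
import Fermat.Agent.S51.Semistable

/-!
# Downstream assembly for S51: rational 3-isogeny + rational 5-isogeny data contradict semistability
-/

set_option autoImplicit false

namespace Fermat.Agent.S51lib

open Fermat.Agent.S51Lib

theorem false_of_data (descent : ∀ x y : ℚ, y ^ 2 = x * (x - 1) * (x - 81) → y = 0)
    (W : WeierstrassCurve ℤ) (hΔ : W.Δ ≠ 0) (hW : W.IsSemistableModel)
    {K : Type*} [Field K] [Algebra ℚ K]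
    (x₀ s : ℚ) (x₁ x₂ : K)
    (h3 : psi3 (W.map (Int.castRingHom ℚ)) x₀ = 0)
    (hs : x₁ + x₂ = (s : K))
    (hne : x₁ ≠ x₂)
    (hp1 : (x₂ - x₁) * F ((W.map (Int.castRingHom ℚ)).map (algebraMap ℚ K)) x₁
      = - psi3 ((W.map (Int.castRingHom ℚ)).map (algebraMap ℚ K)) x₁)
    (hp2 : (x₁ - x₂) * F ((W.map (Int.castRingHom ℚ)).map (algebraMap ℚ K)) x₂
      = - psi3 ((W.map (Int.castRingHom ℚ)).map (algebraMap ℚ K)) x₂) : False := by
  have : CharZero K := algebraRat.charZero K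
  obtain ⟨A, hA⟩ : ∃ A : ℚ, A = -(W.c₄ : ℚ) / 48 := ⟨_, rfl⟩
  obtain ⟨B, hB⟩ : ∃ B : ℚ, B = -(W.c₆ : ℚ) / 864 := ⟨_, rfl⟩
  obtain ⟨b, hb⟩ : ∃ b : ℚ, b = (W.b₂ : ℚ) / 12 := ⟨_, rfl⟩
  have hA0 : A ≠ 0 := by
    rw [hA]
    have : (W.c₄ : ℚ) ≠ 0 := by exact_mod_cast c4_ne_zero W hW
    exact div_ne_zero (neg_ne_zero.mpr this) (by norm_num)
  have hB0 : B ≠ 0 := by
    rw [hB]
    have : (W.c₆ : ℚ) ≠ 0 := by exact_mod_cast c6_ne_zero W hW
    exact div_ne_zero (neg_ne_zero.mpr this) (by norm_num)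
  have hrel : (1728 : ℚ) * (W.Δ : ℚ) = (W.c₄ : ℚ) ^ 3 - (W.c₆ : ℚ) ^ 2 := by
    exact_mod_cast W.c_relation
  have hdisc : 4 * A ^ 3 + 27 * B ^ 2 = -(W.Δ : ℚ) / 16 := by
    rw [hA, hB]
    linear_combination (1 / 27648) * hrel
  have hD0 : 4 * A ^ 3 + 27 * B ^ 2 ≠ 0 := by
    rw [hdisc]
    have : (W.Δ : ℚ) ≠ 0 := by exact_mod_cast hΔ
    exact div_ne_zero (neg_ne_zero.mpr this) (by norm_num)
  -- the 3-torsion equation
  have h3' : 3 * (x₀ + b) ^ 4 + 6 * A * (x₀ + b) ^ 2 + 12 * B * (x₀ + b) - A ^ 2 = 0 := by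
    rw [psi3_shift] at h3
    simp only [WeierstrassCurve.map_b₂, WeierstrassCurve.map_c₄, WeierstrassCurve.map_c₆,
      eq_intCast] at h3
    rw [hA, hB, hb]
    exact h3
  -- the 5-torsion equation
  have h5K := pair_alg (A : K) (B : K) (x₁ + (b : K)) (x₂ + (b : K))
    (fun h => hne (add_right_cancel h))
    (by
      rw [F_shift, psi3_shift] at hp1
      simp only [WeierstrassCurve.map_b₂, WeierstrassCurve.map_c₄, WeierstrassCurve.map_c₆,
        eq_intCast, eq_ratCast, Rat.cast_intCast] at hp1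
      rw [hA, hB, hb]
      push_cast
      linear_combination hp1)
    (by
      rw [F_shift, psi3_shift] at hp2
      simp only [WeierstrassCurve.map_b₂, WeierstrassCurve.map_c₄, WeierstrassCurve.map_c₆,
        eq_intCast, eq_ratCast, Rat.cast_intCast] at hp2
      rw [hA, hB, hb]
      push_cast
      linear_combination hp2)
  have hsum : x₁ + (b : K) + (x₂ + (b : K)) = ((s + 2 * b : ℚ) : K) := by
    push_cast
    linear_combination hs
  rw [hsum] at h5K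
  have h5' : (s + 2 * b) ^ 6 + 20 * A * (s + 2 * b) ^ 4 + 160 * B * (s + 2 * b) ^ 3
      - 80 * A ^ 2 * (s + 2 * b) ^ 2 - 128 * A * B * (s + 2 * b) - 80 * B ^ 2 = 0 := by
    exact_mod_cast h5K
  obtain ⟨H, hH, hj⟩ := alg_main descent A B (x₀ + b) (s + 2 * b) hA0 hB0 hD0 h3' h5'
  apply endgame W hW H hH
  rw [hdisc, hA] at hj
  linear_combination (-16) * hj

end Fermat.Agent.S51lib
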