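import Fermat.Agent.S51.Torsion
import Fermat.Prelude.Def_FLTPrelim_ModularRep

/-!
# Reducible mod 3 and mod 5 representations: rational data (helper for S51)
-/

set_option autoImplicit false
set_option linter.unusedSectionVars false

namespace Fermat.Agent.S51Lib

open WeierstrassCurve WeierstrassCurve.Affine WeierstrassCurve.Affine.Point Polynomial

/-! ### Linear algebra -/

theorem exists_generator_of_card_le {p : ℕ} [Fact p.Prime] {M : Type*} [AddCommGroup M]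
    [Module (ZMod p) M] [Finite M] (h : Nat.card M ≤ p ^ 2) (N : Submodule (ZMod p) M)
    (h0 : N ≠ ⊥) (h1 : N ≠ ⊤) :
    ∃ P ∈ N, P ≠ 0 ∧ ∀ Q ∈ N, ∃ k : ℕ, k < p ∧ Q = k • P := by
  have hp : 1 < p := (Fact.out : p.Prime).one_lt
  have : Module.Finite (ZMod p) M := Module.Finite.of_finite
  have hc := Module.natCard_eq_pow_finrank (K := ZMod p) (V := M)
  rw [Nat.card_zmod] at hc
  have h2 : Module.finrank (ZMod p) M ≤ 2 := by
    rw [hc] at h
    exact (Nat.pow_le_pow_iff_right hp).mp h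
  have hlt : Module.finrank (ZMod p) N < Module.finrank (ZMod p) M := Submodule.finrank_lt h1
  have hpos : 0 < Module.finrank (ZMod p) N := by
    rw [Module.finrank_pos_iff]
    exact Submodule.nontrivial_iff_ne_bot.mpr h0
  have h1' : Module.finrank (ZMod p) N = 1 := by omega
  obtain ⟨v, hv0, hv⟩ := finrank_eq_one_iff'.mp h1'
  refine ⟨v, v.2, fun h => hv0 (Subtype.ext h), fun Q hQ => ?_⟩
  obtain ⟨c, hc⟩ := hv ⟨Q, hQ⟩
  refine ⟨c.val, ZMod.val_lt c, ?_⟩
  have := congrArg Subtype.val hc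
  simp only [Submodule.coe_smul] at this
  rw [← this, ← Nat.cast_smul_eq_nsmul (ZMod p), ZMod.natCast_zmod_val]

/-! ### Galois descent -/

theorem exists_rat_of_fixed (x : AlgebraicClosure ℚ)
    (h : ∀ σ : AlgebraicClosure ℚ ≃ₐ[ℚ] AlgebraicClosure ℚ, σ x = x) :
    ∃ q : ℚ, (q : AlgebraicClosure ℚ) = x := by
  have : IsAlgClosure ℚ (AlgebraicClosure ℚ) := AlgebraicClosure.instIsAlgClosure ℚ
  have : IsGalois ℚ (AlgebraicClosure ℚ) := inferInstance
  obtain ⟨q, hq⟩ := (InfiniteGalois.mem_range_algebraMap_iff_fixed x).mpr h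
  exact ⟨q, by rw [← hq, eq_ratCast]⟩

/-! ### Counting points with prescribed `x`-coordinates -/

section Count

variable {K : Type*} [Field K] [DecidableEq K] {W : WeierstrassCurve.Affine K}

def fibre (W : WeierstrassCurve.Affine K) (x : K) : Set W.Point :=
  {P | ∃ (y : K) (h : W.Nonsingular x y), P = some x y h}

theorem fibre_finite (x : K) : (fibre W x).Finite ∧ (fibre W x).ncard ≤ 2 := by
  by_cases hne : (fibre W x).Nonempty
  · obtain ⟨P₀, y₀, h₀, rfl⟩ := hne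
    have hsub : fibre W x ⊆ {some x y₀ h₀, - some x y₀ h₀} := by
      rintro P ⟨y, h, rfl⟩
      rcases Y_eq_of_X_eq h.1 h₀.1 rfl with h' | h'
      · left; subst h'; rfl
      · right
        rw [Set.mem_singleton_iff, neg_some]
        subst h'; rfl
    have hfin : ({some x y₀ h₀, - some x y₀ h₀} : Set W.Point).Finite := by simp
    refine ⟨hfin.subset hsub, (Set.ncard_le_ncard hsub hfin).trans ?_⟩
    exact (Set.ncard_insert_le _ _).trans (by simp)
  · rw [Set.not_nonempty_iff_eq_empty] at hne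
    rw [hne]; simp

theorem finite_of_roots (p : K[X]) (hp : p ≠ 0) (T : Set W.Point)
    (hT : ∀ (x y : K) (h : W.Nonsingular x y), some x y h ∈ T → p.eval x = 0) :
    T.Finite ∧ T.ncard ≤ 2 * p.natDegree + 1 := by
  have hsub : T ⊆ (⋃ x ∈ p.roots.toFinset, fibre W x) ∪ {0} := by
    intro P hP
    rcases P with _ | ⟨x, y, h⟩
    · right; rfl
    · left
      simp only [Set.mem_iUnion]
      refine ⟨x, ?_, y, h, rfl⟩
      rw [Multiset.mem_toFinset, mem_roots hp]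
      exact hT x y h hP
  have hfin1 : (⋃ x ∈ p.roots.toFinset, fibre W x).Finite :=
    Set.Finite.biUnion (Finset.finite_toSet _) fun x _ => (fibre_finite x).1
  have hfin : ((⋃ x ∈ p.roots.toFinset, fibre W x) ∪ {0}).Finite := hfin1.union (by simp)
  refine ⟨hfin.subset hsub, (Set.ncard_le_ncard hsub hfin).trans ?_⟩
  refine (Set.ncard_union_le _ _).trans ?_
  rw [Set.ncard_singleton]
  have h1 := (Finset.set_ncard_biUnion_le p.roots.toFinset (fibre W)).trans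
    (Finset.sum_le_card_nsmul _ _ 2 fun x _ => (fibre_finite x).2)
  rw [smul_eq_mul] at h1
  have h2 : p.roots.toFinset.card ≤ p.natDegree :=
    (Multiset.toFinset_card_le _).trans (card_roots' p)
  nlinarith

theorem torsionBy_finite (n : ℕ) (p : K[X]) (hp : p ≠ 0)
    (hT : ∀ (x y : K) (h : W.Nonsingular x y), n • (some x y h : W.Point) = 0 → p.eval x = 0) :
    Finite (Submodule.torsionBy ℤ W.Point n) ∧
      Nat.card (Submodule.torsionBy ℤ W.Point n) ≤ 2 * p.natDegree + 1 := by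
  have := finite_of_roots p hp (Submodule.torsionBy ℤ W.Point n : Set W.Point) (by
    intro x y h hmem
    apply hT x y h
    rw [SetLike.mem_coe, Submodule.mem_torsionBy_iff, natCast_zsmul] at hmem
    exact hmem)
  refine ⟨this.1, ?_⟩
  rw [← Nat.card_coe_set_eq] at this
  exact this.2

end Count

/-! ### The division polynomials as polynomials -/

section Poly

variable {K : Type*} [Field K] (W : WeierstrassCurve.Affine K)

noncomputable def Fp : K[X] := C 4 * X ^ 3 + C W.b₂ * X ^ 2 + C (2 * W.b₄) * X + C W.b₆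
noncomputable def psi3p : K[X] :=
  C 3 * X ^ 4 + C W.b₂ * X ^ 3 + C (3 * W.b₄) * X ^ 2 + C (3 * W.b₆) * X + C W.b₈
noncomputable def B4p : K[X] := C W.b₄ + C W.b₂ * X + C 6 * X ^ 2
noncomputable def Psi5p : K[X] := Fp W ^ 4 - B4p W * psi3p W * Fp W ^ 2 + psi3p W ^ 3

theorem eval_psi3p (x : K) : (psi3p W).eval x = psi3 W x := by
  simp [psi3p, psi3]

theorem eval_Psi5p (x : K) : (Psi5p W).eval x = Psi5 W x := by
  simp [Psi5p, Psi5, psi3p, psi3, Fp, F, B4p, B4]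

theorem natDegree_psi3p (h3 : (3 : K) ≠ 0) : (psi3p W).natDegree = 4 := by
  unfold psi3p
  compute_degree!

theorem natDegree_Psi5p (h5 : (5 : K) ≠ 0) : (Psi5p W).natDegree = 12 := by
  unfold Psi5p psi3p Fp B4p
  compute_degree
  all_goals try norm_num
  exact h5

theorem exists_nonsingular [IsAlgClosed K] (hΔ : W.Δ ≠ 0) (x : K) : ∃ y, W.Nonsingular x y := by
  set q : K[X] := X ^ 2 + C (W.a₁ * x + W.a₃) * X - C (x ^ 3 + W.a₂ * x ^ 2 + W.a₄ * x + W.a₆)
    with hq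
  have hdeg : q.degree ≠ 0 := by
    have : q.degree = 2 := by
      rw [hq]; compute_degree!
    rw [this]; exact two_ne_zero
  obtain ⟨y, hy⟩ := IsAlgClosed.exists_root q hdeg
  refine ⟨y, (W.equation_iff_nonsingular_of_Δ_ne_zero hΔ).mp ?_⟩
  rw [equation_iff]
  simp only [hq, IsRoot.def, eval_add, eval_sub, eval_mul, eval_pow, eval_X, eval_C] at hy
  linear_combination hy

variable {W} [DecidableEq K]

theorem three_torsion_card (h3 : (3 : K) ≠ 0) :
    Finite (Submodule.torsionBy ℤ W.Point (3 : ℕ)) ∧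
      Nat.card (Submodule.torsionBy ℤ W.Point (3 : ℕ)) ≤ 3 ^ 2 := by
  have hd := natDegree_psi3p W h3
  have := torsionBy_finite (W := W) 3 (psi3p W) (by intro h; rw [h] at hd; simp at hd)
    (fun x y h h0 => by rw [eval_psi3p]; exact psi3_eq_zero_of_three_nsmul h h0)
  rw [hd] at this
  exact this

theorem five_torsion_card (h5 : (5 : K) ≠ 0) :
    Finite (Submodule.torsionBy ℤ W.Point (5 : ℕ)) ∧
      Nat.card (Submodule.torsionBy ℤ W.Point (5 : ℕ)) ≤ 5 ^ 2 := by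
  have hd := natDegree_Psi5p W h5
  have := torsionBy_finite (W := W) 5 (Psi5p W) (by intro h; rw [h] at hd; simp at hd)
    (fun x y h h0 => by
      rw [eval_Psi5p]
      obtain ⟨x₂, y₂, h₂, -, hne, e₁, e₂⟩ := pair_of_five_nsmul h h0
      exact Psi5_eq_zero_of_pair hne e₁ e₂)
  rw [hd] at this
  exact this

theorem three_torsion_nontrivial [IsAlgClosed K] (hΔ : W.Δ ≠ 0) (h3 : (3 : K) ≠ 0) :
    Nontrivial (Submodule.torsionBy ℤ W.Point (3 : ℕ)) := by
  have hd := natDegree_psi3p W h3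
  obtain ⟨x, hx⟩ := IsAlgClosed.exists_root (psi3p W) (by
    intro h
    have := natDegree_eq_zero_iff_degree_le_zero.mpr h.le
    omega)
  obtain ⟨y, hy⟩ := exists_nonsingular W hΔ x
  rw [IsRoot.def, eval_psi3p] at hx
  refine ⟨⟨⟨some x y hy, ?_⟩, 0, ?_⟩⟩
  · rw [Submodule.mem_torsionBy_iff, natCast_zsmul]
    exact three_nsmul_of_psi3_eq_zero hΔ hy hx
  · intro h
    exact some_ne_zero hy (congrArg Subtype.val h)

theorem five_torsion_nontrivial [IsAlgClosed K] (hΔ : W.Δ ≠ 0) (h5 : (5 : K) ≠ 0) :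
    Nontrivial (Submodule.torsionBy ℤ W.Point (5 : ℕ)) := by
  have hd := natDegree_Psi5p W h5
  obtain ⟨x, hx⟩ := IsAlgClosed.exists_root (Psi5p W) (by
    intro h
    have := natDegree_eq_zero_iff_degree_le_zero.mpr h.le
    omega)
  obtain ⟨y, hy⟩ := exists_nonsingular W hΔ x
  rw [IsRoot.def, eval_Psi5p] at hx
  refine ⟨⟨⟨some x y hy, ?_⟩, 0, ?_⟩⟩
  · rw [Submodule.mem_torsionBy_iff, natCast_zsmul]
    exact five_nsmul_of_Psi5_eq_zero hΔ hy hx
  · intro h
    exact some_ne_zero hy (congrArg Subtype.val h)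

end Poly

/-! ### The Galois action -/

section Galois

/-- The `x`-coordinate of a point (`0` for the point at infinity). -/
def xc {K : Type*} [Field K] {W : WeierstrassCurve.Affine K} : W.Point → K
  | .zero => 0
  | .some x _ _ => x

theorem xc_neg {K : Type*} [Field K] {W : WeierstrassCurve.Affine K} (P : W.Point) :
    xc (-P) = xc P := by
  cases P <;> rfl

local notation "Qb" => AlgebraicClosure ℚ

variable (E : WeierstrassCurve.Affine ℚ)

theorem xc_smul (σ : Qb ≃ₐ[ℚ] Qb) (P : (E⁄Qb).Point) : xc (σ • P) = σ (xc P) := by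
  cases P with
  | zero => exact (map_zero σ).symm
  | some x y h => rfl

theorem smul_ne_zero' (σ : Qb ≃ₐ[ℚ] Qb) {P : (E⁄Qb).Point} (hP : P ≠ 0) : σ • P ≠ 0 := by
  intro h
  apply hP
  have := congrArg (fun Q => σ⁻¹ • Q) h
  simp only [inv_smul_smul] at this
  rw [this]
  exact smul_zero (A := (E⁄Qb).Point) σ⁻¹

theorem psi3_baseChange (q : ℚ) : psi3 (E⁄Qb) (q : Qb) = ((psi3 E q : ℚ) : Qb) := by
  simp only [psi3, Affine.baseChange, WeierstrassCurve.baseChange, map_b₂, map_b₄, map_b₆, map_b₈,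
    eq_ratCast]
  push_cast
  ring

theorem F_baseChange (q : ℚ) : F (E⁄Qb) (q : Qb) = ((F E q : ℚ) : Qb) := by
  simp only [F, Affine.baseChange, WeierstrassCurve.baseChange, map_b₂, map_b₄, map_b₆, eq_ratCast]
  push_cast
  ring

theorem Δ_baseChange_ne_zero (hΔ : E.Δ ≠ 0) : (E⁄Qb).Δ ≠ 0 := by
  simp only [Affine.baseChange, WeierstrassCurve.baseChange, map_Δ, eq_ratCast]
  exact_mod_cast hΔ

theorem three_data (hΔ : E.Δ ≠ 0) (h3 : ¬ GaloisRepIsIrreducible (K := Qb) ℚ E 3) :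
    ∃ x₀ : ℚ, psi3 E x₀ = 0 := by
  have hΔ' := Δ_baseChange_ne_zero E hΔ
  have h3K : (3 : Qb) ≠ 0 := by norm_num
  have hnt := three_torsion_nontrivial (W := E⁄Qb) hΔ' h3K
  obtain ⟨hfin, hcard⟩ := three_torsion_card (W := E⁄Qb) h3K
  unfold GaloisRepIsIrreducible at h3
  push Not at h3
  obtain ⟨N, hN, h0, h1⟩ := h3 hnt
  obtain ⟨P, hPN, hP0, hgen⟩ := exists_generator_of_card_le hcard N h0 h1
  obtain ⟨P, hP⟩ := P
  have hP3 : (3 : ℕ) • P = 0 := by
    rw [Submodule.mem_torsionBy_iff, natCast_zsmul] at hP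
    exact hP
  have hP0' : P ≠ 0 := fun h => hP0 (Subtype.ext h)
  have hfix : ∀ σ : Qb ≃ₐ[ℚ] Qb, σ (xc P) = xc P := by
    intro σ
    obtain ⟨k, hk, hσ⟩ := hgen _ (hN σ _ hPN)
    have hσ' : σ • P = k • P := congrArg Subtype.val hσ
    rw [← xc_smul, hσ']
    interval_cases k
    · exfalso
      rw [zero_smul] at hσ'
      exact smul_ne_zero' E σ hP0' hσ'
    · rw [one_smul]
    · have : (2 : ℕ) • P = - P := by
        rw [eq_neg_iff_add_eq_zero, ← hP3]
        simp only [succ_nsmul, zero_nsmul]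
      rw [this, xc_neg]
  obtain ⟨q, hq⟩ := exists_rat_of_fixed _ hfix
  refine ⟨q, ?_⟩
  have : psi3 (E⁄Qb) (q : Qb) = 0 := by
    rw [hq]
    rcases P with _ | ⟨x, y, h⟩
    · exact absurd rfl hP0'
    · exact psi3_eq_zero_of_three_nsmul h hP3
  rw [psi3_baseChange] at this
  exact_mod_cast this

theorem five_data (hΔ : E.Δ ≠ 0) (h5 : ¬ GaloisRepIsIrreducible (K := Qb) ℚ E 5) :
    ∃ (s m : ℚ) (x₁ x₂ : Qb), x₁ + x₂ = (s : Qb) ∧ x₁ * x₂ = (m : Qb) ∧ x₁ ≠ x₂ ∧
      (x₂ - x₁) * F (E⁄Qb) x₁ = - psi3 (E⁄Qb) x₁ ∧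
      (x₁ - x₂) * F (E⁄Qb) x₂ = - psi3 (E⁄Qb) x₂ := by
  have : Fact (Nat.Prime 5) := ⟨by norm_num⟩
  have hΔ' := Δ_baseChange_ne_zero E hΔ
  have h5K : (5 : Qb) ≠ 0 := by norm_num
  have hnt := five_torsion_nontrivial (W := E⁄Qb) hΔ' h5K
  obtain ⟨hfin, hcard⟩ := five_torsion_card (W := E⁄Qb) h5K
  unfold GaloisRepIsIrreducible at h5
  push Not at h5
  obtain ⟨N, hN, h0, h1⟩ := h5 hnt
  obtain ⟨P, hPN, hP0, hgen⟩ := exists_generator_of_card_le hcard N h0 h1
  obtain ⟨P, hP⟩ := P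
  have hP5 : (5 : ℕ) • P = 0 := by
    rw [Submodule.mem_torsionBy_iff, natCast_zsmul] at hP
    exact hP
  have hP0' : P ≠ 0 := fun h => hP0 (Subtype.ext h)
  have hswap : ∀ σ : Qb ≃ₐ[ℚ] Qb,
      (σ (xc P) = xc P ∧ σ (xc ((2 : ℕ) • P)) = xc ((2 : ℕ) • P)) ∨
      (σ (xc P) = xc ((2 : ℕ) • P) ∧ σ (xc ((2 : ℕ) • P)) = xc P) := by
    intro σ
    obtain ⟨k, hk, hσ⟩ := hgen _ (hN σ _ hPN)
    have hσ' : σ • P = k • P := congrArg Subtype.val hσ
    have hσ2 : σ • ((2 : ℕ) • P) = (2 * k) • P := by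
      rw [two_nsmul, smul_add, hσ', ← add_nsmul, two_mul]
    rw [← xc_smul, ← xc_smul, hσ', hσ2]
    interval_cases k
    · exfalso
      rw [zero_smul] at hσ'
      exact smul_ne_zero' E σ hP0' hσ'
    · left
      exact ⟨by rw [one_smul], rfl⟩
    · right
      refine ⟨rfl, ?_⟩
      have : (2 * 2 : ℕ) • P = - P := by
        rw [eq_neg_iff_add_eq_zero, ← hP5]
        simp only [succ_nsmul, zero_nsmul, Nat.reduceMul]
      rw [this, xc_neg]
    · right
      have h3 : (3 : ℕ) • P = - ((2 : ℕ) • P) := by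
        rw [eq_neg_iff_add_eq_zero, ← add_nsmul, ← hP5]
      have h6 : (2 * 3 : ℕ) • P = P := by
        have : (2 * 3 : ℕ) • P = (5 : ℕ) • P + P := by
          simp only [succ_nsmul, zero_nsmul, Nat.reduceMul]
        rw [this, hP5, zero_add]
      rw [h3, h6, xc_neg]
      exact ⟨rfl, rfl⟩
    · left
      have h4 : (4 : ℕ) • P = - P := by
        rw [eq_neg_iff_add_eq_zero, ← hP5]
        simp only [succ_nsmul, zero_nsmul]
      have h8 : (2 * 4 : ℕ) • P = - ((2 : ℕ) • P) := by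
        rw [mul_nsmul', h4, smul_neg]
      rw [h4, h8, xc_neg, xc_neg]
      exact ⟨rfl, rfl⟩
  obtain ⟨s, hs⟩ := exists_rat_of_fixed (xc P + xc ((2 : ℕ) • P)) (by
    intro σ
    rw [map_add]
    rcases hswap σ with ⟨e₁, e₂⟩ | ⟨e₁, e₂⟩
    · rw [e₁, e₂]
    · rw [e₁, e₂, add_comm])
  obtain ⟨m, hm⟩ := exists_rat_of_fixed (xc P * xc ((2 : ℕ) • P)) (by
    intro σ
    rw [map_mul]
    rcases hswap σ with ⟨e₁, e₂⟩ | ⟨e₁, e₂⟩
    · rw [e₁, e₂]
    · rw [e₁, e₂, mul_comm])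
  rcases P with _ | ⟨x₁, y₁, h₁⟩
  · exact absurd rfl hP0'
  obtain ⟨x₂, y₂, h₂, h2P, hne, e₁, e₂⟩ := pair_of_five_nsmul h₁ hP5
  rw [h2P] at hs hm
  exact ⟨s, m, x₁, x₂, hs.symm, hm.symm, hne, e₁, e₂⟩

/-- **Main result of this file.**  If both the mod 3 and the mod 5 representations are
reducible, we get a rational root of `ψ₃` and a Galois-stable pair `{x(P), x(2P)}` of
`x`-coordinates of points of order 5. -/
theorem reducible_data (W : WeierstrassCurve ℤ) (hΔ : W.Δ ≠ 0)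
    (h3 : ¬ W.ModRepIsIrreducible 3) (h5 : ¬ W.ModRepIsIrreducible 5) :
    ∃ (x₀ s m : ℚ) (x₁ x₂ : Qb),
      psi3 (W.map (Int.castRingHom ℚ)) x₀ = 0 ∧
      x₁ + x₂ = (s : Qb) ∧ x₁ * x₂ = (m : Qb) ∧ x₁ ≠ x₂ ∧
      (x₂ - x₁) * F ((W.map (Int.castRingHom ℚ))⁄Qb) x₁ =
        - psi3 ((W.map (Int.castRingHom ℚ))⁄Qb) x₁ ∧
      (x₁ - x₂) * F ((W.map (Int.castRingHom ℚ))⁄Qb) x₂ =
        - psi3 ((W.map (Int.castRingHom ℚ))⁄Qb) x₂ := by
  have hΔ' : (W.map (Int.castRingHom ℚ)).Δ ≠ 0 := by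
    rw [map_Δ]
    simpa using hΔ
  obtain ⟨x₀, hx₀⟩ := three_data _ hΔ' h3
  obtain ⟨s, m, x₁, x₂, h⟩ := five_data _ hΔ' h5
  exact ⟨x₀, s, m, x₁, x₂, hx₀, h⟩

end Galois

end Fermat.Agent.S51Lib
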