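import Mathlib

set_option autoImplicit false

/-!
# The curve `y² = x (x - 1) (x - 81)` has only the obvious rational points
-/

namespace Fermat.Agent.S51lib

/-- If `A * B` is a nonzero square, then `A = ± g s²`, `B = ± g t²` with `g = gcd A B`. -/
theorem exists_gcd_sq_of_mul_eq_sq {A B T : ℤ} (hT : T ≠ 0) (h : A * B = T ^ 2) :
    ∃ s t : ℤ, s ≠ 0 ∧ t ≠ 0 ∧
      ((A = (Int.gcd A B : ℤ) * s ^ 2 ∧ B = (Int.gcd A B : ℤ) * t ^ 2) ∨
        (A = -((Int.gcd A B : ℤ) * s ^ 2) ∧ B = -((Int.gcd A B : ℤ) * t ^ 2))) := by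
  have hA : A ≠ 0 := by
    rintro rfl
    rw [zero_mul] at h
    exact hT (pow_eq_zero_iff (two_ne_zero) |>.mp h.symm)
  have hg : 0 < Int.gcd A B := Int.gcd_pos_of_ne_zero_left _ hA
  obtain ⟨A', B', hcop, hA', hB'⟩ := Int.exists_gcd_one hg
  set g : ℤ := (Int.gcd A B : ℤ) with hgdef
  have hg0 : g ≠ 0 := by positivity
  have hgT : g ∣ T := by
    rw [← Int.pow_dvd_pow_iff (two_ne_zero), ← h]
    exact ⟨A' * B', by rw [hA', hB']; ring⟩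
  obtain ⟨T', rfl⟩ := hgT
  have hT' : T' ≠ 0 := by
    rintro rfl
    exact hT (mul_zero _)
  have h2 : A' * B' = T' ^ 2 := by
    have : g ^ 2 * (A' * B') = g ^ 2 * T' ^ 2 := by
      calc g ^ 2 * (A' * B') = (A' * g) * (B' * g) := by ring
        _ = A * B := by rw [← hA', ← hB']
        _ = (g * T') ^ 2 := h
        _ = g ^ 2 * T' ^ 2 := by ring
    exact mul_left_cancel₀ (pow_ne_zero 2 hg0) this
  obtain ⟨s, hs⟩ := Int.sq_of_gcd_eq_one hcop h2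
  obtain ⟨t, ht⟩ := Int.sq_of_gcd_eq_one (by rwa [Int.gcd_comm]) (by rwa [mul_comm] at h2 : B' * A' = T' ^ 2)
  have hT'pos : 0 < T' ^ 2 := by positivity
  have hs0 : s ≠ 0 := by
    rintro rfl
    rcases hs with hs | hs <;> · rw [hs] at h2; simp at h2; exact hT'pos.ne h2
  have ht0 : t ≠ 0 := by
    rintro rfl
    rcases ht with ht | ht <;> · rw [ht] at h2; simp at h2; exact hT'pos.ne h2
  refine ⟨s, t, hs0, ht0, ?_⟩
  have hs2 : 0 < s ^ 2 := by positivity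
  have ht2 : 0 < t ^ 2 := by positivity
  rcases hs with hs | hs <;> rcases ht with ht | ht
  · left
    exact ⟨by rw [hA', hs]; ring, by rw [hB', ht]; ring⟩
  · exfalso
    rw [hs, ht] at h2
    nlinarith [mul_pos hs2 ht2]
  · exfalso
    rw [hs, ht] at h2
    nlinarith [mul_pos hs2 ht2]
  · right
    exact ⟨by rw [hA', hs]; ring, by rw [hB', ht]; ring⟩

/-- The `3`-adic obstruction. -/
theorem no_three_class {S T e : ℤ} (he : ¬ (3 : ℤ) ∣ e)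
    (h : (3 * S ^ 2 - e ^ 2) * (3 * S ^ 2 - 81 * e ^ 2) = 3 * T ^ 2) : False := by
  have key : ∀ e S T : ZMod 3, e ≠ 0 → -(e ^ 2) * S ^ 2 = T ^ 2 → S = 0 ∧ T = 0 := by decide
  have he' : (e : ZMod 3) ≠ 0 := by
    intro h0
    exact he ((ZMod.intCast_zmod_eq_zero_iff_dvd e 3).mp h0)
  have three0 : (3 : ZMod 3) = 0 := by decide
  have h1 : (3 * S ^ 2 - e ^ 2) * (S ^ 2 - 27 * e ^ 2) = T ^ 2 := by
    have : 3 * ((3 * S ^ 2 - e ^ 2) * (S ^ 2 - 27 * e ^ 2)) = 3 * T ^ 2 := by linear_combination h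
    exact mul_left_cancel₀ (by norm_num) this
  have c1 : -((e : ZMod 3) ^ 2) * (S : ZMod 3) ^ 2 = (T : ZMod 3) ^ 2 := by
    have := congrArg (Int.cast : ℤ → ZMod 3) h1
    push_cast at this
    rw [← this]
    have h27 : (27 : ZMod 3) = 0 := by decide
    rw [three0, h27]
    ring
  obtain ⟨hS, hT⟩ := key _ _ _ he' c1
  obtain ⟨S₁, rfl⟩ := (ZMod.intCast_zmod_eq_zero_iff_dvd S 3).mp hS
  obtain ⟨T₁, rfl⟩ := (ZMod.intCast_zmod_eq_zero_iff_dvd T 3).mp hT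
  have h2 : (27 * S₁ ^ 2 - e ^ 2) * (S₁ ^ 2 - 3 * e ^ 2) = T₁ ^ 2 := by
    have : 9 * ((27 * S₁ ^ 2 - e ^ 2) * (S₁ ^ 2 - 3 * e ^ 2)) = 9 * T₁ ^ 2 := by
      push_cast at h1
      linear_combination h1
    exact mul_left_cancel₀ (by norm_num) this
  have c2 : -((e : ZMod 3) ^ 2) * (S₁ : ZMod 3) ^ 2 = (T₁ : ZMod 3) ^ 2 := by
    have := congrArg (Int.cast : ℤ → ZMod 3) h2
    push_cast at this
    rw [← this]
    have h27 : (27 : ZMod 3) = 0 := by decide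
    rw [three0, h27]
    ring
  obtain ⟨hS₁, hT₁⟩ := key _ _ _ he' c2
  obtain ⟨S₂, rfl⟩ := (ZMod.intCast_zmod_eq_zero_iff_dvd S₁ 3).mp hS₁
  obtain ⟨T₂, rfl⟩ := (ZMod.intCast_zmod_eq_zero_iff_dvd T₁ 3).mp hT₁
  have h3 : (243 * S₂ ^ 2 - e ^ 2) * (3 * S₂ ^ 2 - e ^ 2) = 3 * T₂ ^ 2 := by
    have : 3 * ((243 * S₂ ^ 2 - e ^ 2) * (3 * S₂ ^ 2 - e ^ 2)) = 3 * (3 * T₂ ^ 2) := by
      push_cast at h2
      linear_combination h2
    exact mul_left_cancel₀ (by norm_num) this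
  have c3 : (e : ZMod 3) ^ 4 = 0 := by
    have := congrArg (Int.cast : ℤ → ZMod 3) h3
    push_cast at this
    have h243 : (243 : ZMod 3) = 0 := by decide
    rw [three0, h243] at this
    linear_combination this
  exact he' (pow_eq_zero_iff (by norm_num) |>.mp c3)

/-- The `2`-adic obstruction. -/
theorem no_two_class {M e u v κ : ℤ} (hcop : IsCoprime M e)
    (hκ : κ = 1 ∨ κ = -1 ∨ κ = 5 ∨ κ = -5)
    (h1 : M ^ 2 - e ^ 2 = 2 * κ * u ^ 2) (h2 : M ^ 2 - 81 * e ^ 2 = 2 * κ * v ^ 2) : False := by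
  -- stage 1, modulo 8
  have key1 : ∀ κ : ZMod 8, (κ = 1 ∨ κ = -1 ∨ κ = 5 ∨ κ = -5) → ∀ M e u : ZMod 8,
      M ^ 2 - e ^ 2 = 2 * κ * u ^ 2 →
      (4 * M = 0 ∧ 4 * e = 0) ∨ (4 * u = 0 ∧ 4 * e ≠ 0) := by decide
  have key2 : ∀ κ : ZMod 8, (κ = 1 ∨ κ = -1 ∨ κ = 5 ∨ κ = -5) → ∀ M e v : ZMod 8,
      M ^ 2 - 81 * e ^ 2 = 2 * κ * v ^ 2 →
      (4 * M = 0 ∧ 4 * e = 0) ∨ (4 * v = 0 ∧ 4 * e ≠ 0) := by decide
  have even_iff : ∀ z : ℤ, 4 * (z : ZMod 8) = 0 ↔ (2 : ℤ) ∣ z := by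
    intro z
    have : (4 * (z : ZMod 8)) = ((4 * z : ℤ) : ZMod 8) := by push_cast; ring
    rw [this, ZMod.intCast_zmod_eq_zero_iff_dvd]
    constructor
    · intro h; push_cast at h; omega
    · intro h; push_cast; omega
  have hκ8 : ((κ : ZMod 8) = 1 ∨ (κ : ZMod 8) = -1 ∨ (κ : ZMod 8) = 5 ∨ (κ : ZMod 8) = -5) := by
    rcases hκ with rfl | rfl | rfl | rfl <;> simp
  have c1 : (M : ZMod 8) ^ 2 - (e : ZMod 8) ^ 2 = 2 * (κ : ZMod 8) * (u : ZMod 8) ^ 2 := by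
    exact_mod_cast congrArg (Int.cast : ℤ → ZMod 8) h1
  have c2 : (M : ZMod 8) ^ 2 - 81 * (e : ZMod 8) ^ 2 = 2 * (κ : ZMod 8) * (v : ZMod 8) ^ 2 := by
    exact_mod_cast congrArg (Int.cast : ℤ → ZMod 8) h2
  have notboth : ¬ ((2 : ℤ) ∣ M ∧ (2 : ℤ) ∣ e) := by
    rintro ⟨hM, he⟩
    have := hcop.isUnit_of_dvd' hM he
    norm_num [Int.isUnit_iff] at this
  have hu : (2 : ℤ) ∣ u ∧ ¬ (2 : ℤ) ∣ e := by
    rcases key1 _ hκ8 _ _ _ c1 with ⟨a, b⟩ | ⟨a, b⟩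
    · exact absurd ⟨(even_iff M).mp a, (even_iff e).mp b⟩ notboth
    · exact ⟨(even_iff u).mp a, fun h => b ((even_iff e).mpr h)⟩
  have hv : (2 : ℤ) ∣ v := by
    rcases key2 _ hκ8 _ _ _ c2 with ⟨a, b⟩ | ⟨a, b⟩
    · exact absurd ⟨(even_iff M).mp a, (even_iff e).mp b⟩ notboth
    · exact (even_iff v).mp a
  obtain ⟨⟨u₁, rfl⟩, he⟩ := hu
  obtain ⟨v₁, rfl⟩ := hv
  have h3 : 10 * e ^ 2 = κ * (u₁ ^ 2 - v₁ ^ 2) := by
    have : 8 * (10 * e ^ 2) = 8 * (κ * (u₁ ^ 2 - v₁ ^ 2)) := by linear_combination h1 - h2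
    exact mul_left_cancel₀ (by norm_num) this
  have key3 : ∀ κ : ZMod 4, (κ = 1 ∨ κ = -1 ∨ κ = 5 ∨ κ = -5) → ∀ e u v : ZMod 4,
      2 * e ≠ 0 → 10 * e ^ 2 ≠ κ * (u ^ 2 - v ^ 2) := by decide
  have hκ4 : ((κ : ZMod 4) = 1 ∨ (κ : ZMod 4) = -1 ∨ (κ : ZMod 4) = 5 ∨ (κ : ZMod 4) = -5) := by
    rcases hκ with rfl | rfl | rfl | rfl <;> simp
  have he4 : 2 * (e : ZMod 4) ≠ 0 := by
    intro h0
    have : (2 * (e : ZMod 4)) = ((2 * e : ℤ) : ZMod 4) := by push_cast; ring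
    rw [this, ZMod.intCast_zmod_eq_zero_iff_dvd] at h0
    apply he
    push_cast at h0
    omega
  apply key3 _ hκ4 _ (u₁ : ZMod 4) (v₁ : ZMod 4) he4
  exact_mod_cast congrArg (Int.cast : ℤ → ZMod 4) h3

theorem dvd_81_cases {g : ℕ} (h : g ∣ 81) : g = 1 ∨ g = 3 ∨ g = 9 ∨ g = 27 ∨ g = 81 := by
  have h1 : g ∈ Nat.divisors 81 := Nat.mem_divisors.mpr ⟨h, by norm_num⟩
  have h2 : Nat.divisors 81 = {1, 3, 9, 27, 81} := by decide
  rw [h2] at h1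
  simpa using h1

theorem dvd_80_cases {g : ℕ} (h : g ∣ 80) :
    ∃ δ k : ℤ, (g : ℤ) = δ * k ^ 2 ∧ (δ = 1 ∨ δ = 2 ∨ δ = 5 ∨ δ = 10) := by
  have h1 : g ∈ Nat.divisors 80 := Nat.mem_divisors.mpr ⟨h, by norm_num⟩
  have h2 : Nat.divisors 80 = {1, 2, 4, 5, 8, 10, 16, 20, 40, 80} := by decide
  rw [h2] at h1
  simp only [Finset.mem_insert, Finset.mem_singleton] at h1
  rcases h1 with rfl | rfl | rfl | rfl | rfl | rfl | rfl | rfl | rfl | rfl
  · exact ⟨1, 1, by norm_num, by norm_num⟩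
  · exact ⟨2, 1, by norm_num, by norm_num⟩
  · exact ⟨1, 2, by norm_num, by norm_num⟩
  · exact ⟨5, 1, by norm_num, by norm_num⟩
  · exact ⟨2, 2, by norm_num, by norm_num⟩
  · exact ⟨10, 1, by norm_num, by norm_num⟩
  · exact ⟨1, 4, by norm_num, by norm_num⟩
  · exact ⟨5, 2, by norm_num, by norm_num⟩
  · exact ⟨10, 2, by norm_num, by norm_num⟩
  · exact ⟨5, 4, by norm_num, by norm_num⟩

/-- Complete `2`-descent, integral form. -/
theorem two_descent_int {m e N : ℤ} (hcop : IsCoprime m e) (hN : N ≠ 0)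
    (h : N ^ 2 = m * (m - e ^ 2) * (m - 81 * e ^ 2)) :
    ∃ M u v δ : ℤ, (δ = 1 ∨ δ = -1 ∨ δ = 5 ∨ δ = -5) ∧ m = M ^ 2 ∧ m - e ^ 2 = δ * u ^ 2 ∧
      m - 81 * e ^ 2 = δ * v ^ 2 := by
  have hN2 : 0 < N ^ 2 := by positivity
  have he2 : 0 ≤ e ^ 2 := by positivity
  -- Step A
  have hm : 0 < m := by
    by_contra hcon
    push Not at hcon
    have h1 : m - e ^ 2 ≤ 0 := by linarith
    have h2 : m - 81 * e ^ 2 ≤ 0 := by linarith
    have h3 : 0 ≤ (m - e ^ 2) * (m - 81 * e ^ 2) := mul_nonneg_of_nonpos_of_nonpos h1 h2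
    have h4 : m * ((m - e ^ 2) * (m - 81 * e ^ 2)) ≤ 0 := mul_nonpos_of_nonpos_of_nonneg hcon h3
    rw [← mul_assoc, ← h] at h4
    linarith
  set K : ℤ := (m - e ^ 2) * (m - 81 * e ^ 2) with hK
  have hmK : m * K = N ^ 2 := by rw [h, hK]; ring
  obtain ⟨s, t, hs0, ht0, hst⟩ := exists_gcd_sq_of_mul_eq_sq hN hmK
  have hcop2 : IsCoprime m (e ^ 2) := hcop.pow_right
  have hg81 : Int.gcd m K ∣ 81 := by
    have hd1 : (Int.gcd m K : ℤ) ∣ m := Int.gcd_dvd_left m K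
    have hd2 : (Int.gcd m K : ℤ) ∣ K := Int.gcd_dvd_right m K
    have hc1 : IsCoprime (Int.gcd m K : ℤ) (e ^ 2) := hcop2.of_isCoprime_of_dvd_left hd1
    have hc2 : IsCoprime (Int.gcd m K : ℤ) (m - e ^ 2) := by
      have : IsCoprime m (m - e ^ 2) := by
        have := IsCoprime.add_mul_left_right hcop2.neg_right 1
        simpa [sub_eq_add_neg, add_comm] using this
      exact this.of_isCoprime_of_dvd_left hd1
    have hd3 : (Int.gcd m K : ℤ) ∣ m - 81 * e ^ 2 := hc2.dvd_of_dvd_mul_left hd2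
    have hd4 : (Int.gcd m K : ℤ) ∣ 81 * e ^ 2 := by
      have := dvd_sub hd1 hd3
      simpa using this
    have hd5 : (Int.gcd m K : ℤ) ∣ 81 := hc1.dvd_of_dvd_mul_right hd4
    exact_mod_cast hd5
  have hs2 : 0 < s ^ 2 := by positivity
  have hgpos : (0 : ℤ) < (Int.gcd m K : ℤ) := by
    have : 0 < Int.gcd m K := Int.gcd_pos_of_ne_zero_left _ hm.ne'
    exact_mod_cast this
  have hst' : m = (Int.gcd m K : ℤ) * s ^ 2 ∧ K = (Int.gcd m K : ℤ) * t ^ 2 := by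
    rcases hst with hst | hst
    · exact hst
    · exfalso
      have := hst.1
      nlinarith [mul_pos hgpos hs2]
  obtain ⟨hms, hKt⟩ := hst'
  -- Step B
  have hB : ∃ M T : ℤ, T ≠ 0 ∧ m = M ^ 2 ∧ K = T ^ 2 := by
    have h3e : (3 : ℤ) ∣ m → ¬ (3 : ℤ) ∣ e := by
      intro h3m h3e
      have := hcop.isUnit_of_dvd' h3m h3e
      norm_num [Int.isUnit_iff] at this
    rcases dvd_81_cases hg81 with hg | hg | hg | hg | hg <;> rw [hg] at hms hKt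
    · exact ⟨s, t, ht0, by rw [hms]; push_cast; ring, by rw [hKt]; push_cast; ring⟩
    · exfalso
      push_cast at hms hKt
      refine no_three_class (S := s) (T := t) (h3e ⟨s ^ 2, hms⟩) ?_
      rw [← hms, ← hKt]
    · exact ⟨3 * s, 3 * t, by simpa using ht0, by rw [hms]; push_cast; ring,
        by rw [hKt]; push_cast; ring⟩
    · exfalso
      push_cast at hms hKt
      refine no_three_class (S := 3 * s) (T := 3 * t) (h3e ⟨9 * s ^ 2, by rw [hms]; ring⟩) ?_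
      have e1 : 3 * (3 * s) ^ 2 = m := by rw [hms]; ring
      have e2 : 3 * (3 * t) ^ 2 = K := by rw [hKt]; ring
      rw [e1, e2]
    · exact ⟨9 * s, 9 * t, by simpa using ht0, by rw [hms]; push_cast; ring,
        by rw [hKt]; push_cast; ring⟩
  obtain ⟨M, T, hT0, hmM, hKT⟩ := hB
  -- Step C
  have hcopM : IsCoprime M e := by
    rw [hmM] at hcop
    exact (IsCoprime.pow_left_iff (by norm_num)).mp hcop
  set A : ℤ := m - e ^ 2 with hA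
  set B : ℤ := m - 81 * e ^ 2 with hBdef
  have hAB : A * B = T ^ 2 := by rw [← hKT]
  obtain ⟨s₂, t₂, -, -, hst₂⟩ := exists_gcd_sq_of_mul_eq_sq hT0 hAB
  have hg80 : Int.gcd A B ∣ 80 := by
    have hd1 : (Int.gcd A B : ℤ) ∣ A := Int.gcd_dvd_left A B
    have hd2 : (Int.gcd A B : ℤ) ∣ B := Int.gcd_dvd_right A B
    have hcA : IsCoprime A (e ^ 2) := by
      have := IsCoprime.add_mul_left_left hcop2 (-1)
      simpa [hA, sub_eq_add_neg] using this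
    have hc1 : IsCoprime (Int.gcd A B : ℤ) (e ^ 2) := hcA.of_isCoprime_of_dvd_left hd1
    have hd4 : (Int.gcd A B : ℤ) ∣ 80 * e ^ 2 := by
      have := dvd_sub hd1 hd2
      have e1 : A - B = 80 * e ^ 2 := by rw [hA, hBdef]; ring
      rwa [e1] at this
    have hd5 : (Int.gcd A B : ℤ) ∣ 80 := hc1.dvd_of_dvd_mul_right hd4
    exact_mod_cast hd5
  obtain ⟨δ', k, hgk, hδ'⟩ := dvd_80_cases hg80
  rw [hgk] at hst₂
  have hε : ∃ ε : ℤ, (ε = 1 ∨ ε = -1) ∧ A = ε * δ' * (k * s₂) ^ 2 ∧ B = ε * δ' * (k * t₂) ^ 2 := by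
    rcases hst₂ with ⟨h1, h2⟩ | ⟨h1, h2⟩
    · exact ⟨1, Or.inl rfl, by rw [h1]; ring, by rw [h2]; ring⟩
    · exact ⟨-1, Or.inr rfl, by rw [h1]; ring, by rw [h2]; ring⟩
  obtain ⟨ε, hε, hA', hB'⟩ := hε
  rcases hδ' with rfl | rfl | rfl | rfl
  · refine ⟨M, k * s₂, k * t₂, ε, ?_, hmM, by rw [hA']; ring, by rw [hB']; ring⟩
    rcases hε with rfl | rfl <;> simp
  · exfalso
    refine no_two_class (κ := ε) (u := k * s₂) (v := k * t₂) hcopM ?_ ?_ ?_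
    · rcases hε with rfl | rfl <;> simp
    · rw [← hmM, ← hA, hA']; ring
    · rw [← hmM, ← hBdef, hB']; ring
  · refine ⟨M, k * s₂, k * t₂, ε * 5, ?_, hmM, by rw [hA'], by rw [hB']⟩
    rcases hε with rfl | rfl <;> simp
  · exfalso
    refine no_two_class (κ := ε * 5) (u := k * s₂) (v := k * t₂) hcopM ?_ ?_ ?_
    · rcases hε with rfl | rfl <;> simp
    · rw [← hmM, ← hA, hA']; ring
    · rw [← hmM, ← hBdef, hB']; ring

/-- A rational number whose square is an integer is an integer. -/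
theorem exists_int_of_sq_eq_int {q : ℚ} {Z : ℤ} (h : q ^ 2 = Z) : ∃ W : ℤ, q = W := by
  have h1 : (q ^ 2).den = 1 := by rw [h]; rfl
  rw [Rat.den_pow] at h1
  have h2 : q.den = 1 := by
    rw [pow_two] at h1
    exact Nat.eq_one_of_mul_eq_one_left h1
  exact ⟨q.num, ((Rat.den_eq_one_iff q).mp h2).symm⟩

end Fermat.Agent.S51lib
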