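import Mathlib
import Fermat.Prelude.Def_FLTPrelim_GaloisRep

/-!
# Auxiliary Galois / linear algebra lemmas for S51
-/

set_option autoImplicit false

namespace Fermat.Agent.S51lib

open WeierstrassCurve WeierstrassCurve.Affine WeierstrassCurve.Affine.Point

/-- (G2) An element of `ℚ̄` fixed by the whole Galois group is rational. -/
theorem exists_rat_of_fixed (x : AlgebraicClosure ℚ)
    (h : ∀ σ : AlgebraicClosure ℚ ≃ₐ[ℚ] AlgebraicClosure ℚ, σ x = x) :
    ∃ q : ℚ, x = (q : AlgebraicClosure ℚ) := by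
  have h1 : IsAlgClosure ℚ (AlgebraicClosure ℚ) := AlgebraicClosure.instIsAlgClosure ℚ
  have h2 : IsGalois ℚ (AlgebraicClosure ℚ) := inferInstance
  obtain ⟨q, hq⟩ := (InfiniteGalois.mem_range_algebraMap_iff_fixed (k := ℚ) x).mpr h
  exact ⟨q, by rw [← hq, eq_ratCast]⟩

/-- (G1) In an `𝔽_p`-vector space with at most `p²` elements, a proper nonzero subspace is a line. -/
theorem exists_generator_of_card_le {p : ℕ} [Fact p.Prime] {V : Type*} [AddCommGroup V]
    [Module (ZMod p) V] (hV : Finite V) (hcard : Nat.card V ≤ p ^ 2) (N : Submodule (ZMod p) V)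
    (hbot : N ≠ ⊥) (htop : N ≠ ⊤) :
    ∃ v ∈ N, v ≠ 0 ∧ ∀ w ∈ N, ∃ k : ℕ, w = k • v := by
  have hp : 1 < p := (Fact.out : p.Prime).one_lt
  have hfin : Module.Finite (ZMod p) V := Module.Finite.of_finite
  have h1 : Nat.card V = p ^ Module.finrank (ZMod p) V := by
    rw [Module.natCard_eq_pow_finrank (K := ZMod p) (V := V), Nat.card_zmod]
  have h2 : Module.finrank (ZMod p) V ≤ 2 := by
    rw [h1] at hcard
    exact (Nat.pow_le_pow_iff_right hp).mp hcard
  have h3 : Module.finrank (ZMod p) N < Module.finrank (ZMod p) V :=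
    Submodule.finrank_lt htop
  have h4 : 0 < Module.finrank (ZMod p) N := by
    rw [Module.finrank_pos_iff]
    exact (Submodule.nontrivial_iff_ne_bot).mpr hbot
  have h5 : Module.finrank (ZMod p) N = 1 := by omega
  obtain ⟨⟨v, hvN⟩, hv0, hv⟩ := finrank_eq_one_iff'.mp h5
  refine ⟨v, hvN, fun h => hv0 (Subtype.ext h), fun w hw => ?_⟩
  obtain ⟨c, hc⟩ := hv ⟨w, hw⟩
  refine ⟨c.val, ?_⟩
  have hc' : c • v = w := congrArg Subtype.val hc
  rw [← hc', ← Nat.cast_smul_eq_nsmul (ZMod p), ZMod.natCast_zmod_val]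

section G3

variable {W' : Affine ℚ}

local notation "Qb" => AlgebraicClosure ℚ

theorem smul_some (σ : Qb ≃ₐ[ℚ] Qb) {x y : Qb} (h : (W'⁄Qb).Nonsingular x y) :
    ∃ h' : (W'⁄Qb).Nonsingular (σ x) (σ y), σ • (Point.some x y h : (W'⁄Qb).Point) = Point.some (σ x) (σ y) h' := by
  rw [algEquiv_smul_def]
  exact ⟨_, Point.map_some _ h⟩

theorem coe_smul_torsionBy {n : ℕ} (σ : Qb ≃ₐ[ℚ] Qb)
    (P : Submodule.torsionBy ℤ (W'⁄Qb).Point n) :
    ((σ • P : Submodule.torsionBy ℤ (W'⁄Qb).Point n) : (W'⁄Qb).Point) = σ • (P : (W'⁄Qb).Point) :=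
  rfl

end G3

end Fermat.Agent.S51lib
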