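import Fermat.Agent.S51.Dup

/-!
# 3- and 5-torsion via x-coordinates (helper for S51)
-/

set_option autoImplicit false

namespace Fermat.Agent.S51Lib

open WeierstrassCurve WeierstrassCurve.Affine WeierstrassCurve.Affine.Point

variable {K : Type*} [Field K] (W : WeierstrassCurve.Affine K)

def B2 (x : K) : K := W.b₂ + 12 * x
def B4 (x : K) : K := W.b₄ + W.b₂ * x + 6 * x ^ 2

theorem F_add (x d : K) :
    F W (x + d) = 4 * d ^ 3 + B2 W x * d ^ 2 + 2 * B4 W x * d + F W x := by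
  simp only [F, B2, B4]; ring

theorem psi3_add (x d : K) :
    psi3 W (x + d) = 3 * d ^ 4 + B2 W x * d ^ 3 + 3 * B4 W x * d ^ 2 + 3 * F W x * d + psi3 W x := by
  simp only [F, psi3, B2, B4]; ring

theorem four_psi3 (x : K) : 4 * psi3 W x = B2 W x * F W x - B4 W x ^ 2 := by
  simp only [F, psi3, B2, B4]
  linear_combination W.b_relation

theorem Δ_eq (x : K) : W.Δ = -(B2 W x) ^ 2 * psi3 W x - 8 * B4 W x ^ 3 - 27 * F W x ^ 2 +
    9 * B2 W x * B4 W x * F W x := by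
  simp only [F, psi3, B2, B4, WeierstrassCurve.Δ, WeierstrassCurve.b₂, WeierstrassCurve.b₄,
    WeierstrassCurve.b₆, WeierstrassCurve.b₈]
  ring

theorem c₄_eq (x : K) : W.c₄ = B2 W x ^ 2 - 24 * B4 W x := by
  simp only [B2, B4, WeierstrassCurve.c₄]
  ring

variable {W}

theorem F_ne_zero_of_psi3_eq_zero (hΔ : W.Δ ≠ 0) {x : K} (h : psi3 W x = 0) : F W x ≠ 0 := by
  intro hF
  have h4 := four_psi3 W x
  rw [h, hF] at h4
  have hB4 : B4 W x = 0 := by
    have : B4 W x ^ 2 = 0 := by linear_combination h4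
    exact pow_eq_zero_iff two_ne_zero |>.mp this
  apply hΔ
  rw [Δ_eq W x, h, hF, hB4]
  ring

/-- The "5-division polynomial" (up to sign) as a function. -/
def Psi5 (W : WeierstrassCurve.Affine K) (x : K) : K :=
  F W x ^ 4 - B4 W x * psi3 W x * F W x ^ 2 + psi3 W x ^ 3

theorem F_ne_zero_of_Psi5_eq_zero (hΔ : W.Δ ≠ 0) {x : K} (h : Psi5 W x = 0) : F W x ≠ 0 := by
  intro hF
  rw [Psi5, hF] at h
  have h3 : psi3 W x = 0 := by
    have : psi3 W x ^ 3 = 0 := by linear_combination h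
    exact pow_eq_zero_iff three_ne_zero |>.mp this
  exact F_ne_zero_of_psi3_eq_zero hΔ h3 hF

theorem psi3_ne_zero_of_Psi5_eq_zero (hΔ : W.Δ ≠ 0) {x : K} (h : Psi5 W x = 0) :
    psi3 W x ≠ 0 := by
  intro h3
  have hF := F_ne_zero_of_Psi5_eq_zero hΔ h
  rw [Psi5, h3] at h
  apply hF
  have : F W x ^ 4 = 0 := by linear_combination h
  exact pow_eq_zero_iff (by norm_num) |>.mp this

/-- the pure algebra of a pair `x₁, x₂ = x₁ + d` exchanged by duplication. -/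
theorem Psi5_eq_zero_of_pair {x₁ x₂ : K} (hne : x₁ ≠ x₂)
    (h₁ : (x₂ - x₁) * F W x₁ = - psi3 W x₁) (h₂ : (x₁ - x₂) * F W x₂ = - psi3 W x₂) :
    Psi5 W x₁ = 0 := by
  set d := x₂ - x₁ with hd
  have hd0 : d ≠ 0 := sub_ne_zero.mpr (Ne.symm hne)
  have hx₂ : x₂ = x₁ + d := by rw [hd]; ring
  rw [hx₂, F_add, psi3_add] at h₂
  have h3 : d * (d ^ 3 - B4 W x₁ * d - F W x₁) = 0 := by
    have : x₁ - (x₁ + d) = -d := by ring
    rw [this] at h₂
    linear_combination (-1 : K) * h₂ + h₁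
  have h4 : d ^ 3 - B4 W x₁ * d - F W x₁ = 0 := (mul_eq_zero.mp h3).resolve_left hd0
  have h5 : psi3 W x₁ = - (d * F W x₁) := by linear_combination h₁
  rw [Psi5, h5]
  linear_combination (-(F W x₁) ^ 3) * h4

/-- conversely, a root of `Psi5` gives such a pair. -/
theorem pair_of_Psi5_eq_zero (hΔ : W.Δ ≠ 0) {x₁ : K} (h : Psi5 W x₁ = 0) :
    ∃ x₂ : K, x₁ ≠ x₂ ∧ (x₂ - x₁) * F W x₁ = - psi3 W x₁ ∧ (x₁ - x₂) * F W x₂ = - psi3 W x₂ ∧
      F W x₂ ≠ 0 := by
  have hF := F_ne_zero_of_Psi5_eq_zero hΔ h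
  have h3 := psi3_ne_zero_of_Psi5_eq_zero hΔ h
  set d := - psi3 W x₁ / F W x₁ with hd
  have hdF : d * F W x₁ = - psi3 W x₁ := by rw [hd]; field_simp
  have hd0 : d ≠ 0 := by
    rw [hd]; exact div_ne_zero (neg_ne_zero.mpr h3) hF
  have h5 : psi3 W x₁ = - (d * F W x₁) := by linear_combination hdF
  have h4 : d ^ 3 - B4 W x₁ * d - F W x₁ = 0 := by
    rw [Psi5, h5] at h
    have : (F W x₁) ^ 3 * (d ^ 3 - B4 W x₁ * d - F W x₁) = 0 := by linear_combination -h
    exact (mul_eq_zero.mp this).resolve_left (pow_ne_zero 3 hF)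
  have h44 := four_psi3 W x₁
  refine ⟨x₁ + d, ?_, ?_, ?_, ?_⟩
  · intro h; apply hd0; linear_combination -h
  · rw [← hdF]; ring
  · rw [F_add, psi3_add, h5]
    linear_combination (-d) * h4
  · rw [F_add]
    intro h0
    -- `F(x₂) * F(x₁) = d ^ 6`
    have h6 : (4 * d ^ 3 + B2 W x₁ * d ^ 2 + 2 * B4 W x₁ * d + F W x₁) * F W x₁ = d ^ 6 := by
      rw [h5] at h44
      linear_combination (-d ^ 2) * h44 - (d ^ 3 + B4 W x₁ * d + F W x₁) * h4
    rw [h0, zero_mul] at h6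
    exact hd0 (pow_eq_zero_iff (by norm_num) |>.mp h6.symm)

section Points

variable [DecidableEq K]

theorem psi3_eq_zero_of_three_nsmul {x y : K} (h : W.Nonsingular x y)
    (h3 : (3 : ℕ) • (some x y h : W.Point) = 0) : psi3 W x = 0 := by
  set P : W.Point := some x y h with hP
  have hP0 : P ≠ 0 := some_ne_zero h
  have h2 : P + P = -P := by
    apply eq_neg_of_add_eq_zero_left
    rw [← h3]; abel
  by_cases hF : F W x = 0
  · exfalso
    have := add_self_of_F_eq_zero h hF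
    rw [← hP, h2, neg_eq_zero] at this
    exact hP0 this
  · obtain ⟨x', y', h', hadd, hx'⟩ := add_self_of_F_ne_zero h hF
    rw [← hP, h2, hP, neg_some] at hadd
    have hxx : x = x' := by
      injection hadd
    rw [← hxx] at hx'
    linear_combination hx'

theorem three_nsmul_of_psi3_eq_zero (hΔ : W.Δ ≠ 0) {x y : K} (h : W.Nonsingular x y)
    (h3 : psi3 W x = 0) : (3 : ℕ) • (some x y h : W.Point) = 0 := by
  have hF := F_ne_zero_of_psi3_eq_zero hΔ h3
  obtain ⟨x', y', h', hadd, hx'⟩ := add_self_of_F_ne_zero h hF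
  rw [h3, _root_.neg_zero] at hx'
  have hxx : x' = x := by
    have := (mul_eq_zero.mp hx').resolve_right hF
    linear_combination this
  set P : W.Point := some x y h with hP
  have hP0 : P ≠ 0 := some_ne_zero h
  rcases (X_eq_iff (h₁ := h') (h₂ := h)).mp hxx with h1 | h1
  · exfalso
    rw [← hadd, ← hP] at h1
    exact hP0 (by simpa using h1)
  · rw [← hadd, ← hP] at h1
    have : (3 : ℕ) • P = (P + P) + P := by abel
    rw [this, h1]; abel

theorem pair_of_five_nsmul {x₁ y₁ : K} (h₁ : W.Nonsingular x₁ y₁)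
    (h5 : (5 : ℕ) • (some x₁ y₁ h₁ : W.Point) = 0) :
    ∃ (x₂ y₂ : K) (h₂ : W.Nonsingular x₂ y₂),
      (2 : ℕ) • (some x₁ y₁ h₁ : W.Point) = some x₂ y₂ h₂ ∧ x₁ ≠ x₂ ∧
      (x₂ - x₁) * F W x₁ = - psi3 W x₁ ∧ (x₁ - x₂) * F W x₂ = - psi3 W x₂ := by
  set P : W.Point := some x₁ y₁ h₁ with hP
  have hP0 : P ≠ 0 := some_ne_zero h₁
  have hF₁ : F W x₁ ≠ 0 := by
    intro hF
    have h2 := add_self_of_F_eq_zero h₁ hF
    rw [← hP] at h2
    apply hP0
    have : P = (5 : ℕ) • P - (2 : ℕ) • (P + P) := by abel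
    rw [this, h5, h2]; simp
  obtain ⟨x₂, y₂, h₂, hadd, hx₂⟩ := add_self_of_F_ne_zero h₁ hF₁
  rw [← hP] at hadd
  have hF₂ : F W x₂ ≠ 0 := by
    intro hF
    have h2 := add_self_of_F_eq_zero h₂ hF
    rw [← hadd] at h2
    apply hP0
    have : P = (5 : ℕ) • P - ((P + P) + (P + P)) := by abel
    rw [this, h5, h2]; simp
  obtain ⟨x₄, y₄, h₄, hadd4, hx₄⟩ := add_self_of_F_ne_zero h₂ hF₂
  rw [← hadd] at hadd4
  have h4 : (P + P) + (P + P) = -P := by
    apply eq_neg_of_add_eq_zero_left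
    rw [← h5]; abel
  rw [h4, hP, neg_some] at hadd4
  have hx41 : x₁ = x₄ := by injection hadd4
  refine ⟨x₂, y₂, h₂, by rw [← hadd]; abel, ?_, hx₂, by rw [hx41]; exact hx₄⟩
  intro hxx
  rcases (X_eq_iff (h₁ := h₁) (h₂ := h₂)).mp hxx with h1 | h1
  · rw [← hadd, ← hP] at h1
    apply hP0
    have : P = (P + P) - P := by abel
    rw [this, ← h1]; abel
  · rw [← hadd, ← hP] at h1
    apply hP0
    have : P = (2 : ℕ) • (P + (P + P)) - (5 : ℕ) • P := by abel
    rw [this, h5]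
    nth_rewrite 1 [h1]
    simp

theorem five_nsmul_of_Psi5_eq_zero (hΔ : W.Δ ≠ 0) {x₁ y₁ : K} (h₁ : W.Nonsingular x₁ y₁)
    (h : Psi5 W x₁ = 0) : (5 : ℕ) • (some x₁ y₁ h₁ : W.Point) = 0 := by
  have hF₁ := F_ne_zero_of_Psi5_eq_zero hΔ h
  obtain ⟨x₂, hne, hr₁, hr₂, hF₂⟩ := pair_of_Psi5_eq_zero hΔ h
  obtain ⟨x₂', y₂, h₂, hadd, hx₂⟩ := add_self_of_F_ne_zero h₁ hF₁
  have hx22 : x₂' = x₂ := by
    have : (x₂' - x₂) * F W x₁ = 0 := by linear_combination hx₂ - hr₁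
    have := (mul_eq_zero.mp this).resolve_right hF₁
    linear_combination this
  subst hx22
  obtain ⟨x₄, y₄, h₄, hadd4, hx₄⟩ := add_self_of_F_ne_zero h₂ hF₂
  have hx41 : x₄ = x₁ := by
    have : (x₄ - x₁) * F W x₂' = 0 := by linear_combination hx₄ - hr₂
    have := (mul_eq_zero.mp this).resolve_right hF₂
    linear_combination this
  set P : W.Point := some x₁ y₁ h₁ with hP
  have hP0 : P ≠ 0 := some_ne_zero h₁
  rw [← hadd] at hadd4
  rcases (X_eq_iff (h₁ := h₄) (h₂ := h₁)).mp hx41 with h1 | h1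
  · -- 4P = P, so 3P = 0, so 2P = -P, so x₂ = x₁
    exfalso
    rw [← hadd4, ← hP] at h1
    have h2 : P + P = -P := by
      apply eq_neg_of_add_eq_zero_left
      have : P + P + P = ((P + P) + (P + P)) - P := by abel
      rw [this, h1]; abel
    rw [hadd, hP, neg_some] at h2
    apply hne
    injection h2 with hx _
    exact hx.symm
  · rw [← hadd4, ← hP] at h1
    have : (5 : ℕ) • P = ((P + P) + (P + P)) + P := by abel
    rw [this, h1]; abel

end Points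

end Fermat.Agent.S51Lib
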